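/-
S56 / block F (FLAT), leaf FL-EF part 2 (helper17): THE BOREL PART AT FINITE LEVEL (for (R3) of
FL-C, `moonshots` row 53, and the case of a line with unramified quotient).

* `inf_range_le_map` (abstract): if `ι : X₂ ⟶ X` is injective and `I` acts trivially on `X`, then
  `H1ur 𝒰 I X ⊓ range (H¹(X₂) → H¹(X)) ≤ image of H1ur 𝒰 I X₂`;
* for a basis `b` of `ρ̄.V` with `ρ̄|G_p` upper triangular (`hT`) and `L` in the family:
  `borelL b hT hL : Rep k Gal(L/ℚ_p)` (the Borel part `W₁ = BorelCore.W1 ρbar p b` of `adL`),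
  `borelι : borelL ⟶ adL`, `compat_borelL` (the `FiniteLevel.Compat` package with helper19's
  `BorelCore.W1Rep`);
* `borelImage b hT 𝒰` : the image of `H¹(G_p, W₁) → H¹(G_p, ad⁰ρ̄)`;
  `levelH1π_mem_borelImage_of_sub` (a cocycle with values in `W₁` up to a coboundary);
* **`finrank_flCond_inf_borelImage_le`** : `dim (flCond ⊓ borelImage) ≤ h⁰(G_p, ad⁰ρ̄) + [k : 𝔽_p]`
  from the finite-level bounds (R3) for all `L` of the family (named hypothesis `hR3`).
-/
import Mathlib
import Fermat.Agent.S56.Flat.Bridge.Main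

set_option autoImplicit false
set_option linter.unusedSectionVars false

namespace Fermat.Agent.S56.Flat.Bridge.Borel

open Module groupCohomology Fermat.Agent.S55.Level Fermat.Agent.S55.LevelDuality Fermat.Agent.S56.Ad
  Fermat.Agent.S56.Loc.BorelCore Fermat.Agent.S56.PT.Unram
  Fermat.Agent.S56.Flat.Bridge.FiniteLevel Fermat.Agent.S56.Flat.Bridge.Compositum
  Fermat.Agent.S56.Flat.Bridge.Member Fermat.Agent.S56.Flat.Bridge.Instance
  Fermat.Agent.S56.Flat.Bridge.Main

local notation "Qbar" => AlgebraicClosure ℚ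

/-! ### The abstract lemma -/

section Abstract

universe u

variable {k G : Type u} [CommRing k] [Group G] {𝒰 : LevelStructure G}
  {X₂ X : Rep.{u} k G} [IsDiscrete 𝒰 X₂] [IsDiscrete 𝒰 X] (ι : X₂ ⟶ X)

/-- If `I` acts trivially on `X` and `ι : X₂ ⟶ X` is injective, an `I`-unramified class of `X`
which comes from `X₂` comes from an `I`-unramified class of `X₂`. -/
theorem inf_range_le_map (hι : Function.Injective ι.hom) (I : Subgroup G)
    (hI : ∀ i ∈ I, ∀ x : X, X.ρ i x = x) :
    H1ur 𝒰 I X ⊓ LinearMap.range (lmap 𝒰 ι 1) ≤ (H1ur 𝒰 I X₂).map (lmap 𝒰 ι 1) := by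
  rintro c ⟨⟨z, hz, rfl⟩, ⟨c₂, hc₂⟩⟩
  obtain ⟨z₂, rfl⟩ := levelH1π_surjective 𝒰 X₂ c₂
  rw [lmap_levelH1π, levelH1π_eq_iff] at hc₂
  obtain ⟨x, hx⟩ := hc₂
  refine ⟨levelH1π 𝒰 X₂ z₂, levelH1π_mem_H1ur 𝒰 I X₂ z₂ (fun τ hτ => ?_), ?_⟩
  · apply hι
    rw [map_zero]
    have h1 : X.ρ τ x - x = ι.hom (z₂.1 τ) - z.1 τ := congrFun hx τ
    rw [hI τ hτ, sub_self, hz τ hτ, sub_zero] at h1
    exact h1.symm
  · rw [lmap_levelH1π, levelH1π_eq_iff]
    exact ⟨x, hx⟩

end Abstract

variable {k : Type} [Field k] {ρbar : ResidualGaloisRep k} {p : ℕ} [Fact p.Prime]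
  [Algebra (ZMod p) k] (b : Basis (Fin 2) k ρbar.V)
  (hT : ∀ τ : PadicAlgCl p ≃ₐ[ℚ_[p]] PadicAlgCl p, IsUT b (ρbar.ρ (localGaloisToGlobal p τ)))

/-! ### The Borel part of `adL` -/

section Family

variable {L : IntermediateField ℚ_[p] (PadicAlgCl p)}
  (hL : L ∈ flatFamily p (trivSubgroup ρbar p))

/-- `W₁` as a submodule of (the carrier of) `adL` -/
noncomputable def W1L : Submodule k (adL ρbar p L hL) := W1 ρbar p b

theorem mem_W1L {x : Ad0 ρbar p} : x ∈ W1L b hL ↔ x ∈ W1 ρbar p b := Iff.rfl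

include hT in
theorem W1L_le_comap (g : L ≃ₐ[ℚ_[p]] L) :
    W1L b hL ≤ (W1L b hL).comap ((adL ρbar p L hL).ρ g) := by
  have := hL.2.1.to_normal
  obtain ⟨τ, rfl⟩ := resL_surjective L g
  intro x hx
  rw [Submodule.mem_comap, adL_ρ_resL hL τ x]
  exact ρ_mem_W1 ρbar p b (localGaloisToGlobal p) hT τ hx

/-- **the Borel part `W₁` of `ad⁰ρ̄` as a representation of `Gal(L/ℚ_p)`** -/
noncomputable def borelL : Rep.{0} k (L ≃ₐ[ℚ_[p]] L) :=
  (adL ρbar p L hL).subrepresentation (W1L b hL) (W1L_le_comap b hT hL)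

/-- the inclusion of the Borel part -/
noncomputable def borelι : borelL b hT hL ⟶ adL ρbar p L hL :=
  Rep.subtype _ _ _

theorem borelι_apply (x : borelL b hT hL) : (borelι b hT hL).hom x = x.1 := rfl

/-- the identity of the carrier `W₁` -/
noncomputable def borelEquiv :
    (W1Rep ρbar p b (localGaloisToGlobal p) hT) ≃+ (borelL b hT hL) where
  toFun x := ⟨x.1, x.2⟩
  invFun x := ⟨x.1, x.2⟩
  left_inv _ := rfl
  right_inv _ := rfl
  map_add' _ _ := rfl

theorem borelEquiv_apply (x : W1Rep ρbar p b (localGaloisToGlobal p) hT) :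
    (borelι b hT hL).hom (borelEquiv b hT hL x) = x.1 := rfl

variable [IsDiscrete (localLevel (localGaloisToGlobal p)) (Mres ρbar p (localGaloisToGlobal p))]

instance isDiscrete_W1Rep' :
    IsDiscrete (localLevel (localGaloisToGlobal p)) (W1Rep ρbar p b (localGaloisToGlobal p) hT) :=
  isDiscrete_W1Rep ρbar p b (localGaloisToGlobal p) hT _

/-- **the compatibility package** for the Borel part -/
theorem compat_borelL :
    haveI := hL.2.1.to_normal
    Compat (localLevel (localGaloisToGlobal p)) (W1Rep ρbar p b (localGaloisToGlobal p) hT)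
      (borelL b hT hL) (resL L) (borelEquiv b hT hL) := by
  have := hL.2.1.to_normal
  have := hL.1
  refine compat_of_equivariant L _ _ _ fun τ x => ?_
  apply Subtype.ext
  exact (adL_ρ_resL hL τ x.1).symm

end Family

/-! ### The image of `H¹(G_p, W₁)` -/

section Image

variable (𝒰 : LevelStructure (PadicAlgCl p ≃ₐ[ℚ_[p]] PadicAlgCl p))
  [IsDiscrete 𝒰 (Mres ρbar p (localGaloisToGlobal p))]

/-- the inclusion `W₁ ⟶ ad⁰ρ̄|G_p` -/
noncomputable def W1ι :
    W1Rep ρbar p b (localGaloisToGlobal p) hT ⟶ Mres ρbar p (localGaloisToGlobal p) :=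
  Rep.subtype _ _ _

theorem W1ι_apply (x : W1Rep ρbar p b (localGaloisToGlobal p) hT) : (W1ι b hT).hom x = x.1 := rfl

theorem W1ι_injective : Function.Injective (W1ι b hT).hom := fun _ _ h => Subtype.ext h

/-- **the image of `H¹(G_p, W₁) → H¹(G_p, ad⁰ρ̄)`** (`W₁` = the Borel part for the line `k·b₀`) -/
noncomputable def borelImage :
    Submodule (ZMod p) (levelCohomology 𝒰 (Mres ρbar p (localGaloisToGlobal p)) 1) :=
  haveI := isDiscrete_W1Rep ρbar p b (localGaloisToGlobal p) hT 𝒰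
  LinearMap.range (lmap 𝒰 (W1ι b hT) 1)

/-- the level cocycle of `W₁` attached to a level cocycle of `ad⁰ρ̄|G_p` with values in `W₁` -/
noncomputable def cocycleW1 (z : levelCocycles₁ 𝒰 (Mres ρbar p (localGaloisToGlobal p)))
    (hz : ∀ g, z.1 g ∈ W1 ρbar p b) :
    levelCocycles₁ 𝒰 (W1Rep ρbar p b (localGaloisToGlobal p) hT) :=
  ⟨fun g => ⟨z.1 g, hz g⟩, by
    rw [Fermat.Agent.S55.Level.mem_levelCocycles₁_iff]
    refine ⟨?_, ?_⟩
    · rw [mem_cocycles₁_iff]
      intro g h
      apply Subtype.ext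
      exact (mem_cocycles₁_iff z.1).1 z.2.1 g h
    · obtain ⟨U, hU, h1⟩ := (mem_levelCochains₁_iff 𝒰 (Mres ρbar p (localGaloisToGlobal p)) z.1).1
        z.2.2
      exact ⟨U, hU, fun g s hs => Subtype.ext (h1 g s hs)⟩⟩

/-- the class of a level cocycle with values in `W₁` lies in `borelImage` -/
theorem levelH1π_mem_borelImage (z : levelCocycles₁ 𝒰 (Mres ρbar p (localGaloisToGlobal p)))
    (hz : ∀ g, z.1 g ∈ W1 ρbar p b) :
    levelH1π 𝒰 (Mres ρbar p (localGaloisToGlobal p)) z ∈ borelImage b hT 𝒰 := by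
  have := isDiscrete_W1Rep ρbar p b (localGaloisToGlobal p) hT 𝒰
  refine ⟨levelH1π 𝒰 _ (cocycleW1 b hT 𝒰 z hz), ?_⟩
  rw [lmap_levelH1π]
  rfl

/-- **a cocycle with values in `W₁` up to a coboundary** represents a class of `borelImage` -/
theorem levelH1π_mem_borelImage_of_sub
    (z : levelCocycles₁ 𝒰 (Mres ρbar p (localGaloisToGlobal p))) (x : Ad0 ρbar p)
    (hz : ∀ g, z.1 g - ((ad0 ρbar p).ρ (localGaloisToGlobal p g) x - x) ∈ W1 ρbar p b) :
    levelH1π 𝒰 (Mres ρbar p (localGaloisToGlobal p)) z ∈ borelImage b hT 𝒰 := by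
  have hcob : (fun g => (Mres ρbar p (localGaloisToGlobal p)).ρ g x - x)
      ∈ coboundaries₁ (Mres ρbar p (localGaloisToGlobal p)) := ⟨x, by funext g; rfl⟩
  have hlev : IsLevel₁ 𝒰 (fun g => (Mres ρbar p (localGaloisToGlobal p)).ρ g x - x) := by
    obtain ⟨U, hU, hfix⟩ :=
      IsDiscrete.exists_fix (𝒰 := 𝒰) (A := Mres ρbar p (localGaloisToGlobal p)) x
    refine ⟨U, hU, fun g s hs => ?_⟩
    show (Mres ρbar p (localGaloisToGlobal p)).ρ (g * s) x - x
      = (Mres ρbar p (localGaloisToGlobal p)).ρ g x - x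
    rw [map_mul, Module.End.mul_apply, hfix s hs]
  let w : levelCocycles₁ 𝒰 (Mres ρbar p (localGaloisToGlobal p)) :=
    ⟨fun g => (Mres ρbar p (localGaloisToGlobal p)).ρ g x - x, by
      rw [Fermat.Agent.S55.Level.mem_levelCocycles₁_iff]
      exact ⟨coboundaries₁_le_cocycles₁ _ hcob, hlev⟩⟩
  have hzw : levelH1π 𝒰 (Mres ρbar p (localGaloisToGlobal p)) z
      = levelH1π 𝒰 (Mres ρbar p (localGaloisToGlobal p)) (z - w) := by
    rw [levelH1π_eq_iff]
    have : z.1 - (z - w).1 = w.1 := by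
      show z.1 - (z.1 - w.1) = w.1
      abel
    rw [this]
    exact hcob
  rw [hzw]
  exact levelH1π_mem_borelImage b hT 𝒰 (z - w) hz

end Image

/-! ### The bound -/

section Bound

variable [Finite k]
  [IsDiscrete (localLevel (localGaloisToGlobal p)) (Mres ρbar p (localGaloisToGlobal p))]

instance finite_borelL {L : IntermediateField ℚ_[p] (PadicAlgCl p)}
    (hL : L ∈ flatFamily p (trivSubgroup ρbar p)) : Finite (borelL b hT hL) :=
  inferInstanceAs (Finite (W1 ρbar p b))

/-- `Gal(ℚ̄_p/L)` acts trivially on `ad⁰ρ̄` -/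
theorem Mres_ρ_eq_of_mem_fixingSubgroup {L : IntermediateField ℚ_[p] (PadicAlgCl p)}
    (hL : L ∈ flatFamily p (trivSubgroup ρbar p)) (τ : PadicAlgCl p ≃ₐ[ℚ_[p]] PadicAlgCl p)
    (hτ : τ ∈ L.fixingSubgroup) (x : Mres ρbar p (localGaloisToGlobal p)) :
    (Mres ρbar p (localGaloisToGlobal p)).ρ τ x = x := by
  have h := adLocK_eq_one hL.2.2.2 τ hτ
  have h1 : adLocK ρbar p τ x = x := by rw [h]; rfl
  exact h1

/-- **(R3) transported**: for `L` of the family, the finite-level bound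
`dim im(H¹(Gal(L/ℚ_p), W₁) → H¹(Gal(L/ℚ_p), ad⁰)) ≤ h⁰ + m` bounds the classes of `borelImage`
inflated from `Gal(L/ℚ_p)`. -/
theorem finrank_H1ur_inf_borelImage_le {L : IntermediateField ℚ_[p] (PadicAlgCl p)}
    (hL : L ∈ flatFamily p (trivSubgroup ρbar p)) (m : ℕ)
    (hb : finrank k (LinearMap.range
        (groupCohomology.map (A := borelL b hT hL) (B := adL ρbar p L hL)
          (MonoidHom.id (L ≃ₐ[ℚ_[p]] L)) (borelι b hT hL) 1).hom) ≤
      finrank k (H0 (adL ρbar p L hL)) + m) :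
    finrank (ZMod p) ↥(H1ur (localLevel (localGaloisToGlobal p)) L.fixingSubgroup
        (Mres ρbar p (localGaloisToGlobal p)) ⊓ borelImage b hT (localLevel (localGaloisToGlobal p)))
      ≤ finrank (ZMod p) (levelCohomology (localLevel (localGaloisToGlobal p))
        (Mres ρbar p (localGaloisToGlobal p)) 0) + finrank (ZMod p) k * m := by
  have := hL.2.1.to_normal
  have := hL.1
  have hc := compat_adL hL
  have hc₂ := compat_borelL b hT hL
  have h1 := finrank_map_H1ur_le hc hc₂ (W1ι b hT) (borelι b hT hL) (fun x => rfl)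
    card_eq_pow_finrank m hb
  rw [ker_resL L] at h1
  have hle := inf_range_le_map (𝒰 := localLevel (localGaloisToGlobal p)) (W1ι b hT)
    (W1ι_injective b hT) L.fixingSubgroup (Mres_ρ_eq_of_mem_fixingSubgroup hL)
  have hfin : Finite ↥((H1ur (localLevel (localGaloisToGlobal p)) L.fixingSubgroup
      (W1Rep ρbar p b (localGaloisToGlobal p) hT)).map
        (lmap (localLevel (localGaloisToGlobal p)) (W1ι b hT) 1)) := by
    have h2 := rangeEquiv hc hc₂ (W1ι b hT) (borelι b hT hL) (fun x => rfl)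
    rw [ker_resL L] at h2
    exact Finite.of_equiv _ h2
  have : Module.Finite (ZMod p) ↥((H1ur (localLevel (localGaloisToGlobal p)) L.fixingSubgroup
      (W1Rep ρbar p b (localGaloisToGlobal p) hT)).map
        (lmap (localLevel (localGaloisToGlobal p)) (W1ι b hT) 1)) := Module.Finite.of_finite
  exact (Submodule.finrank_mono hle).trans h1

/-- **The bound for `flCond ⊓ borelImage`** from the finite-level bounds (R3) for all `L` of the
family. -/
theorem finrank_flCond_inf_borelImage_le (m : ℕ)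
    (hR3 : ∀ (L : IntermediateField ℚ_[p] (PadicAlgCl p))
      (hL : L ∈ flatFamily p (trivSubgroup ρbar p)),
      finrank k (LinearMap.range
        (groupCohomology.map (A := borelL b hT hL) (B := adL ρbar p L hL)
          (MonoidHom.id (L ≃ₐ[ℚ_[p]] L)) (borelι b hT hL) 1).hom) ≤
      finrank k (H0 (adL ρbar p L hL)) + m) :
    finrank (ZMod p) ↥(flCond ρbar p (localLevel (localGaloisToGlobal p)) ⊓
        borelImage b hT (localLevel (localGaloisToGlobal p)))
      ≤ finrank (ZMod p) (levelCohomology (localLevel (localGaloisToGlobal p))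
        (Mres ρbar p (localGaloisToGlobal p)) 0) + finrank (ZMod p) k * m := by
  set 𝒰 := localLevel (localGaloisToGlobal p) with h𝒰
  set B := borelImage b hT 𝒰 with hB
  -- the directed family `H1ur(fix L) ⊓ B`
  let f : flatFamily p (trivSubgroup ρbar p) →
      Submodule (ZMod p) (levelCohomology 𝒰 (Mres ρbar p (localGaloisToGlobal p)) 1) :=
    fun L => H1ur 𝒰 (L : IntermediateField ℚ_[p] (PadicAlgCl p)).fixingSubgroup
      (Mres ρbar p (localGaloisToGlobal p)) ⊓ B
  have hdir : Directed (· ≤ ·) f := by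
    intro L₁ L₂
    obtain ⟨L₃, h1, h2⟩ := directed_H1ur 𝒰 (trivSubgroup ρbar p)
      (Mres ρbar p (localGaloisToGlobal p)) L₁ L₂
    exact ⟨L₃, inf_le_inf_right B h1, inf_le_inf_right B h2⟩
  have hle : flCond ρbar p 𝒰 ⊓ B ≤ ⨆ L, f L := by
    rintro c ⟨hc1, hc2⟩
    rcases isEmpty_or_nonempty (flatFamily p (trivSubgroup ρbar p)) with hemp | hne
    · have h0 : flCond ρbar p 𝒰 = ⊥ := by
        show (⨆ L : flatFamily p (trivSubgroup ρbar p), _) = ⊥
        rw [iSup_of_empty]
      rw [SetLike.mem_coe, h0, Submodule.mem_bot] at hc1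
      rw [hc1]
      exact Submodule.zero_mem _
    · obtain ⟨L, hcL⟩ := (Submodule.mem_iSup_of_directed _
        (directed_H1ur 𝒰 (trivSubgroup ρbar p) (Mres ρbar p (localGaloisToGlobal p)))).1 hc1
      exact Submodule.mem_iSup_of_mem L ⟨hcL, hc2⟩
  have hfinL : ∀ L : flatFamily p (trivSubgroup ρbar p), Module.Finite (ZMod p) (f L) := by
    intro L
    have := finite_H1ur_fix L.2
    have : Finite (f L) := Finite.of_injective
      (fun x : f L => (⟨x.1, x.2.1⟩ : H1ur 𝒰 (L : IntermediateField ℚ_[p]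
        (PadicAlgCl p)).fixingSubgroup (Mres ρbar p (localGaloisToGlobal p))))
      (fun x y h => Subtype.ext (Subtype.mk.inj h))
    exact Module.Finite.of_finite
  have hbound := finrank_iSup_le_of_directed f hdir hfinL _
    (fun L => finrank_H1ur_inf_borelImage_le b hT L.2 m (hR3 L.1 L.2))
  have hfinS : Module.Finite (ZMod p) ↥(⨆ L, f L) := by
    rcases isEmpty_or_nonempty (flatFamily p (trivSubgroup ρbar p)) with hemp | hne
    · rw [iSup_of_empty]
      infer_instance
    · obtain ⟨L, hL⟩ := exists_iSup_eq_of_directed f hdir hfinL _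
        (fun L => finrank_H1ur_inf_borelImage_le b hT L.2 m (hR3 L.1 L.2))
      rw [hL]
      exact hfinL L
  exact (Submodule.finrank_mono hle).trans hbound

end Bound

end Fermat.Agent.S56.Flat.Bridge.Borel
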