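/-
S56 / block F (FLAT), leaf FL-EF part 2 (helper17): THE FLAT LOCAL CONDITION OF RECORD AT `p` AND
ITS TWO PROPERTIES (`TangentAt` = B6 at `p`, `hdim_p_fl` of `Asm/Final`), all `p ≠ 2` (including
`p = 3`).

* `flSpan ρbar p hpk 𝒰` : the `𝔽_p`-span of the classes of the cocycles of the lifts of `ρ̄` to `k[ε]`
  (cyclotomic determinant) which are flat at `p`; `levelH1π_mem_flSpan` (the lift form of the
  membership: by definition), `flSpan_le_flCond`;
* `HasUnramSub ρbar p` : `ρ̄|G_p` has a stable line on which inertia acts trivially;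
* the decision tree (`moonshots` row 53 (R3) + FL-D):
  - `flSpan_le_borelImage` : if `ρ̄|G_p` has a line with unramified quotient (`IsSOBasis`), every
    flat class comes from the Borel part `W₁` of the line (named `hFD1` = FL-D, helper22);
  - `flSpan_eq_bot` : no such line but an unramified stable SUB line ⇒ no flat lift (named `hFD2` =
    the residual twin of FL-D, helper22);
  - otherwise the plain finite-level count `hFLC`;
* **`finrank_flSpan_le`** and **`finrank_flSpan_add_le_local`** (= `hdim_p_fl` in the consumer shape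
  of `Asm/Final`) from the named hypotheses `hLEC` (LEC), `hFD1`, `hFD2` (FL-D), `hR3`, `hFLC` (FL-C
  at finite level).
-/
import Mathlib
import Fermat.Agent.S56.Flat.Bridge.Borel
import Fermat.Agent.S56.Loc.StrictOrdAt

set_option autoImplicit false
set_option linter.unusedSectionVars false

namespace Fermat.Agent.S56.Flat.Bridge.Final

open Module groupCohomology ExtCitation Fermat.Agent.S53 Fermat.Agent.S55.Level
  Fermat.Agent.S55.LevelDuality Fermat.Agent.S56.Ad
  Fermat.Agent.S56.Loc.BorelCore Fermat.Agent.S56.Loc.StrictOrdAt Fermat.Agent.S56.PT.Unram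
  Fermat.Agent.S56.Tan.Cocycle
  Fermat.Agent.S56.Flat.Bridge.FiniteLevel Fermat.Agent.S56.Flat.Bridge.Compositum
  Fermat.Agent.S56.Flat.Bridge.Member Fermat.Agent.S56.Flat.Bridge.Instance
  Fermat.Agent.S56.Flat.Bridge.Main Fermat.Agent.S56.Flat.Bridge.Borel

local notation "Qbar" => AlgebraicClosure ℚ

variable {k : Type} [Field k] (ρbar : ResidualGaloisRep k) (p : ℕ) [Fact p.Prime]
  [Algebra (ZMod p) k] (hpk : (p : k) = 0)

/-! ### The condition -/

section Def

variable (𝒰 : LevelStructure (PadicAlgCl p ≃ₐ[ℚ_[p]] PadicAlgCl p))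
  [IsDiscrete 𝒰 (Mres ρbar p (localGaloisToGlobal p))]

/-- the classes of the cocycles of the flat lifts of `ρ̄` to `k[ε]` -/
def flatClasses : Set (levelCohomology 𝒰 (Mres ρbar p (localGaloisToGlobal p)) 1) :=
  {c | ∃ (ρA : GaloisRepAdic (DualNumber k)) (m : Model ρbar ρA) (hdetA : ρA.DetIsCyclotomic p)
      (z : levelCocycles₁ 𝒰 (Mres ρbar p (localGaloisToGlobal p))),
      ρA.IsFlatAt p ∧ (∀ τ, z.1 τ = m.cocycle p hpk hdetA (localGaloisToGlobal p τ)) ∧
        levelH1π 𝒰 (Mres ρbar p (localGaloisToGlobal p)) z = c}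

/-- **The flat local condition of record at `p`**: the span of the classes of the flat lifts. -/
noncomputable def flSpan :
    Submodule (ZMod p) (levelCohomology 𝒰 (Mres ρbar p (localGaloisToGlobal p)) 1) :=
  Submodule.span (ZMod p) (flatClasses ρbar p hpk 𝒰)

variable {ρbar p hpk}

/-- **(FLAT at `p`, lift form)**: by definition. -/
theorem levelH1π_mem_flSpan {ρA : GaloisRepAdic (DualNumber k)} (m : Model ρbar ρA)
    (hdetA : ρA.DetIsCyclotomic p) (hfl : ρA.IsFlatAt p)
    (z : levelCocycles₁ 𝒰 (Mres ρbar p (localGaloisToGlobal p)))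
    (hz : ∀ τ, z.1 τ = m.cocycle p hpk hdetA (localGaloisToGlobal p τ)) :
    levelH1π 𝒰 (Mres ρbar p (localGaloisToGlobal p)) z ∈ flSpan ρbar p hpk 𝒰 :=
  Submodule.subset_span ⟨ρA, m, hdetA, z, hfl, hz, rfl⟩

theorem flSpan_le_flCond [Finite k] : flSpan ρbar p hpk 𝒰 ≤ flCond ρbar p 𝒰 := by
  refine Submodule.span_le.2 ?_
  rintro c ⟨ρA, m, hdetA, z, hfl, hz, rfl⟩
  exact levelH1π_mem_flCond_of_isFlatAt m hpk hdetA hfl 𝒰 z hz

end Def

/-! ### The decision tree -/

variable {ρbar p}

/-- `ρ̄|G_p` has a stable line on which the inertia group acts trivially. -/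
def HasUnramSub (ρbar : ResidualGaloisRep k) (p : ℕ) [Fact p.Prime] : Prop :=
  ∃ v₀ : ρbar.V, v₀ ≠ 0 ∧
    (∀ τ : PadicAlgCl p ≃ₐ[ℚ_[p]] PadicAlgCl p, ∃ a : k,
      ρbar.ρ (localGaloisToGlobal p τ) v₀ = a • v₀) ∧
    ∀ σ ∈ (primeLocalPlace (pPrime p)).inertiaSubgroupIn ℚ, ρbar.ρ σ v₀ = v₀

/-- the upper triangularity of `ρ̄|G_p` for a basis with `IsSOBasis`, in the vocabulary of
`localGaloisToGlobal p` -/
theorem isUT_of_isSOBasis {b : Basis (Fin 2) k ρbar.V} (hb : IsSOBasis ρbar (pPrime p) b) :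
    ∀ τ : PadicAlgCl p ≃ₐ[ℚ_[p]] PadicAlgCl p, IsUT b (ρbar.ρ (localGaloisToGlobal p τ)) :=
  hb.1

section Tree

variable (𝒰 : LevelStructure (PadicAlgCl p ≃ₐ[ℚ_[p]] PadicAlgCl p))
  [IsDiscrete 𝒰 (Mres ρbar p (localGaloisToGlobal p))]

/-- the shape of FL-D (helper22, `Flat/PThree.lean`): the cocycle of a flat lift is, up to a
coboundary, with values in the Borel part of a line with unramified quotient. -/
def HypFD1 (ρbar : ResidualGaloisRep k) (p : ℕ) [Fact p.Prime] [Algebra (ZMod p) k]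
    (hpk : (p : k) = 0) : Prop :=
  ∀ (ρA : GaloisRepAdic (DualNumber k)) (m : Model ρbar ρA) (hdetA : ρA.DetIsCyclotomic p),
    ρA.IsFlatAt p → ∀ b : Basis (Fin 2) k ρbar.V, IsSOBasis ρbar (pPrime p) b →
      ∃ x : Ad0 ρbar p, ∀ τ : PadicAlgCl p ≃ₐ[ℚ_[p]] PadicAlgCl p,
        m.cocycle p hpk hdetA (localGaloisToGlobal p τ) -
          ((ad0 ρbar p).ρ (localGaloisToGlobal p τ) x - x) ∈ W1 ρbar p b

/-- the shape of the residual twin of FL-D (helper22): if `ρ̄` has a flat lift and an unramified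
stable sub line then it has a line with unramified quotient. -/
def HypFD2 (ρbar : ResidualGaloisRep k) (p : ℕ) [Fact p.Prime] : Prop :=
  ∀ (ρA : GaloisRepAdic (DualNumber k)) (_ : Model ρbar ρA), ρA.DetIsCyclotomic p →
    ρA.IsFlatAt p → HasUnramSub ρbar p → ∃ b : Basis (Fin 2) k ρbar.V, IsSOBasis ρbar (pPrime p) b

theorem flSpan_le_borelImage (hFD1 : HypFD1 ρbar p hpk) {b : Basis (Fin 2) k ρbar.V}
    (hb : IsSOBasis ρbar (pPrime p) b) :
    flSpan ρbar p hpk 𝒰 ≤ borelImage b (isUT_of_isSOBasis hb) 𝒰 := by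
  refine Submodule.span_le.2 ?_
  rintro c ⟨ρA, m, hdetA, z, hfl, hz, rfl⟩
  obtain ⟨x, hx⟩ := hFD1 ρA m hdetA hfl b hb
  refine levelH1π_mem_borelImage_of_sub b (isUT_of_isSOBasis hb) 𝒰 z x fun g => ?_
  rw [hz g]
  exact hx g

theorem flSpan_eq_bot (hFD2 : HypFD2 ρbar p)
    (hno : ¬ ∃ b : Basis (Fin 2) k ρbar.V, IsSOBasis ρbar (pPrime p) b)
    (hsub : HasUnramSub ρbar p) : flSpan ρbar p hpk 𝒰 = ⊥ := by
  rw [eq_bot_iff]
  refine Submodule.span_le.2 ?_
  rintro c ⟨ρA, m, hdetA, z, hfl, hz, rfl⟩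
  exact absurd (hFD2 ρA m hdetA hfl hsub) hno

end Tree

/-! ### The finite-level hypotheses -/

/-- the shape of (R3) of FL-C at finite level, for the lines with unramified quotient -/
def HypR3 (ρbar : ResidualGaloisRep k) (p : ℕ) [Fact p.Prime] [Algebra (ZMod p) k] : Prop :=
  ∀ (b : Basis (Fin 2) k ρbar.V) (hb : IsSOBasis ρbar (pPrime p) b)
    (L : IntermediateField ℚ_[p] (PadicAlgCl p)) (hL : L ∈ flatFamily p (trivSubgroup ρbar p)),
    finrank k (LinearMap.range
      (groupCohomology.map (A := borelL b (isUT_of_isSOBasis hb) hL) (B := adL ρbar p L hL)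
        (MonoidHom.id (L ≃ₐ[ℚ_[p]] L)) (borelι b (isUT_of_isSOBasis hb) hL) 1).hom) ≤
    finrank k (H0 (adL ρbar p L hL)) + 1

/-- the shape of the plain count of FL-C at finite level, needed only when `ρ̄|G_p` has neither a
line with unramified quotient nor an unramified stable sub line -/
def HypFLC (ρbar : ResidualGaloisRep k) (p : ℕ) [Fact p.Prime] [Algebra (ZMod p) k] : Prop :=
  (¬ ∃ b : Basis (Fin 2) k ρbar.V, IsSOBasis ρbar (pPrime p) b) → ¬ HasUnramSub ρbar p →
    ∀ (L : IntermediateField ℚ_[p] (PadicAlgCl p))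
      (hL : L ∈ flatFamily p (trivSubgroup ρbar p)),
      finrank k (H1 (adL ρbar p L hL)) ≤ finrank k (H0 (adL ρbar p L hL)) + 1

/-! ### The bound -/

section Bound

variable [Finite k]
  [IsDiscrete (localLevel (localGaloisToGlobal p)) (Mres ρbar p (localGaloisToGlobal p))]

/-- **The bound for the flat condition of record**: `dim flSpan ≤ h⁰(G_p, ad⁰ρ̄) + [k : 𝔽_p]`. -/
theorem finrank_flSpan_le
    [FiniteDimensional (ZMod p) (levelCohomology (localLevel (localGaloisToGlobal p))
      (Mres ρbar p (localGaloisToGlobal p)) 1)]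
    (hFD1 : HypFD1 ρbar p hpk) (hFD2 : HypFD2 ρbar p) (hR3 : HypR3 ρbar p)
    (hFLC : HypFLC ρbar p) :
    finrank (ZMod p) (flSpan ρbar p hpk (localLevel (localGaloisToGlobal p))) ≤
      finrank (ZMod p) (levelCohomology (localLevel (localGaloisToGlobal p))
        (Mres ρbar p (localGaloisToGlobal p)) 0) + finrank (ZMod p) k := by
  by_cases hso : ∃ b : Basis (Fin 2) k ρbar.V, IsSOBasis ρbar (pPrime p) b
  · obtain ⟨b, hb⟩ := hso
    have h1 := finrank_flCond_inf_borelImage_le b (isUT_of_isSOBasis hb) 1 (hR3 b hb)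
    rw [mul_one] at h1
    refine (Submodule.finrank_mono (le_inf (flSpan_le_flCond _) ?_)).trans h1
    exact flSpan_le_borelImage _ _ hFD1 hb
  · by_cases hsub : HasUnramSub ρbar p
    · rw [flSpan_eq_bot _ _ hFD2 hso hsub, finrank_bot]
      exact Nat.zero_le _
    · have h1 := finrank_flCond_le (ρbar := ρbar) (p := p) 1 (hFLC hso hsub)
      rw [mul_one] at h1
      exact (Submodule.finrank_mono (flSpan_le_flCond _)).trans h1

end Bound

/-! ### `hdim_p` for the flat condition of record -/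

section Dim

open Fermat.Agent.S55.LevelDuality Fermat.Agent.S56.PT.LocalDuality
  Fermat.Agent.S56.Loc.StrictOrdCond

variable [Finite k]

/-- **from `dim 𝓛 ≤ h⁰(G_p, ad⁰ρ̄) + d` to `hdim_p`** (consumer shape of `Asm/Final`), from the local
Euler characteristic formula `hLEC` (named, = helper9's LEC) and local duality:
`dim 𝓛 + h⁰(G_p, (ad⁰ρ̄)') + 2d ≤ h¹(G_p, ad⁰ρ̄)`. -/
theorem add_le_local_of_le (hp2 : p ≠ 2) (h2 : (2 : k) ≠ 0)
    [hM : IsDiscrete (localLevel (primeLocalToGlobal (pPrime p)))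
      (Rep.res (primeLocalToGlobal (pPrime p)) (ad0 ρbar p))]
    [IsDiscrete (localLevel (primeLocalToGlobal (pPrime p)))
      (Rep.res (primeLocalToGlobal (pPrime p)) (ad0' ρbar p))]
    (hLEC : ∀ (Y : Rep (ZMod p) (primeLocalGaloisGroup (pPrime p)))
      [IsDiscrete (localLevel (primeLocalToGlobal (pPrime p))) Y] [FiniteDimensional (ZMod p) Y],
      finrank (ZMod p) (levelCohomology (localLevel (primeLocalToGlobal (pPrime p))) Y 1)
        = finrank (ZMod p) Y
          + finrank (ZMod p) (levelCohomology (localLevel (primeLocalToGlobal (pPrime p))) Y 0)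
          + finrank (ZMod p) (levelCohomology (localLevel (primeLocalToGlobal (pPrime p))) Y 2))
    (𝓛 : Submodule (ZMod p) (levelCohomology (localLevel (primeLocalToGlobal (pPrime p)))
      (Rep.res (primeLocalToGlobal (pPrime p)) (ad0 ρbar p)) 1))
    (h𝓛 : finrank (ZMod p) 𝓛 ≤
      finrank (ZMod p) (levelCohomology (localLevel (primeLocalToGlobal (pPrime p)))
        (Rep.res (primeLocalToGlobal (pPrime p)) (ad0 ρbar p)) 0) + finrank (ZMod p) k) :
    finrank (ZMod p) 𝓛
        + finrank (ZMod p) (levelCohomology (localLevel (primeLocalToGlobal (pPrime p)))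
            (Rep.res (primeLocalToGlobal (pPrime p)) (ad0' ρbar p)) 0)
        + 2 * finrank (ZMod p) k
      ≤ finrank (ZMod p) (levelCohomology (localLevel (primeLocalToGlobal (pPrime p)))
          (Rep.res (primeLocalToGlobal (pPrime p)) (ad0 ρbar p)) 1) := by
  have hfk : Module.Finite (ZMod p) k := Module.Finite.of_finite
  obtain ⟨_, t, hΨ, hfin⟩ :=
    Fermat.Agent.S56.Loc.EulerP.Additive.exists_monoDuality_local (p := p) hp2 (pPrime p)
  have hd : IsDiscrete (localLevel (primeLocalToGlobal (pPrime p)))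
      ((Mres ρbar p (primeLocalToGlobal (pPrime p))).dualTwist
        ((cycloChar p).comp (primeLocalToGlobal (pPrime p)))) :=
    isDiscrete_dualTwist _ _ _
  have hres : finrank (ZMod p) (levelCohomology (localLevel (primeLocalToGlobal (pPrime p)))
        (Rep.res (primeLocalToGlobal (pPrime p)) (ad0' ρbar p)) 0)
      = finrank (ZMod p) (levelCohomology (localLevel (primeLocalToGlobal (pPrime p)))
          ((Mres ρbar p (primeLocalToGlobal (pPrime p))).dualTwist
            ((cycloChar p).comp (primeLocalToGlobal (pPrime p)))) 0) :=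
    finrank_levelCohomology_congr _
      (Fermat.Agent.S55.DualTwist.res_dualTwist (cycloChar p) (ad0 ρbar p)
        (primeLocalToGlobal (pPrime p))) 0
  rw [hres, ← finrank_two_eq_zero hΨ (Mres ρbar p (primeLocalToGlobal (pPrime p)))]
  have hLM := hLEC (Mres ρbar p (primeLocalToGlobal (pPrime p)))
  have hdM : finrank (ZMod p) (Mres ρbar p (primeLocalToGlobal (pPrime p)))
      = finrank (ZMod p) k * 3 := finrank_ad0 ρbar p h2
  rw [hdM] at hLM
  show finrank (ZMod p) 𝓛
      + finrank (ZMod p) (levelCohomology (localLevel (primeLocalToGlobal (pPrime p)))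
        (Mres ρbar p (primeLocalToGlobal (pPrime p))) 2) + 2 * finrank (ZMod p) k
    ≤ finrank (ZMod p) (levelCohomology (localLevel (primeLocalToGlobal (pPrime p)))
        (Mres ρbar p (primeLocalToGlobal (pPrime p))) 1)
  have h𝓛' : finrank (ZMod p) 𝓛 ≤
      finrank (ZMod p) (levelCohomology (localLevel (primeLocalToGlobal (pPrime p)))
        (Mres ρbar p (primeLocalToGlobal (pPrime p))) 0) + finrank (ZMod p) k := h𝓛
  omega

/-- **`hdim_p_fl` for the flat condition of record `flSpan`** (consumer shape of `Asm/Final`, all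
`p ≠ 2`), from the named hypotheses `hLEC` (LEC, helper9), `hFD1`, `hFD2` (FL-D, helper22), `hR3`,
`hFLC` (FL-C at finite level). -/
theorem finrank_flSpan_add_le_local (hp2 : p ≠ 2) (h2 : (2 : k) ≠ 0)
    [hM : IsDiscrete (localLevel (primeLocalToGlobal (pPrime p)))
      (Rep.res (primeLocalToGlobal (pPrime p)) (ad0 ρbar p))]
    [IsDiscrete (localLevel (primeLocalToGlobal (pPrime p)))
      (Rep.res (primeLocalToGlobal (pPrime p)) (ad0' ρbar p))]
    (hLEC : ∀ (Y : Rep (ZMod p) (primeLocalGaloisGroup (pPrime p)))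
      [IsDiscrete (localLevel (primeLocalToGlobal (pPrime p))) Y] [FiniteDimensional (ZMod p) Y],
      finrank (ZMod p) (levelCohomology (localLevel (primeLocalToGlobal (pPrime p))) Y 1)
        = finrank (ZMod p) Y
          + finrank (ZMod p) (levelCohomology (localLevel (primeLocalToGlobal (pPrime p))) Y 0)
          + finrank (ZMod p) (levelCohomology (localLevel (primeLocalToGlobal (pPrime p))) Y 2))
    (hFD1 : HypFD1 ρbar p hpk) (hFD2 : HypFD2 ρbar p) (hR3 : HypR3 ρbar p)
    (hFLC : HypFLC ρbar p) :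
    finrank (ZMod p)
        ↥(@flSpan k _ ρbar p _ _ hpk (localLevel (primeLocalToGlobal (pPrime p))) hM)
        + finrank (ZMod p) (levelCohomology (localLevel (primeLocalToGlobal (pPrime p)))
            (Rep.res (primeLocalToGlobal (pPrime p)) (ad0' ρbar p)) 0)
        + 2 * finrank (ZMod p) k
      ≤ finrank (ZMod p) (levelCohomology (localLevel (primeLocalToGlobal (pPrime p)))
          (Rep.res (primeLocalToGlobal (pPrime p)) (ad0 ρbar p)) 1) := by
  have hfk : Module.Finite (ZMod p) k := Module.Finite.of_finite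
  obtain ⟨_, t, hΨ, hfin⟩ :=
    Fermat.Agent.S56.Loc.EulerP.Additive.exists_monoDuality_local (p := p) hp2 (pPrime p)
  have hfd : FiniteDimensional (ZMod p) (levelCohomology (localLevel (primeLocalToGlobal (pPrime p)))
      (Mres ρbar p (primeLocalToGlobal (pPrime p))) 1) :=
    hfin (Mres ρbar p (primeLocalToGlobal (pPrime p)))
  refine add_le_local_of_le hp2 h2 hLEC _ ?_
  exact @finrank_flSpan_le k _ ρbar p _ _ hpk _ hM hfd hFD1 hFD2 hR3 hFLC

end Dim

end Fermat.Agent.S56.Flat.Bridge.Final
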