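/-
S56 / block F (FLAT), leaf FL-EF part 2 (helper17): THE TWO FL-D HYPOTHESES OF `Bridge/Final` ARE
THEOREMS (helper22's `Flat/PThree/Main.lean` + helper6's core, helper2's SO-RAM):

* `hypFD1 : HypFD1 ρbar p hpk` — the cocycle of a flat lift is, up to a coboundary, with values in
  the Borel part of a line with unramified quotient;
* `hypFD2 : HypFD2 ρbar p` — a `ρ̄` with a flat lift and an unramified stable sub line has a line with
  unramified quotient;
* **`finrank_flSpan_add_le_local'`** : `hdim_p_fl` for the flat condition of record from `hLEC` and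
  the two finite-level hypotheses of FL-C (`HypR3`, `HypFLC`) only.
-/
import Mathlib
import Fermat.Agent.S56.Flat.Bridge.Final
import Fermat.Agent.S56.Flat.PThree.Main
import Fermat.Agent.S56.Loc.CycloRamified

set_option autoImplicit false
set_option linter.unusedSectionVars false

namespace Fermat.Agent.S56.Flat.Bridge.FDInst

open Module groupCohomology ExtCitation Fermat.Agent.S53 Fermat.Agent.S55.Level
  Fermat.Agent.S56.Ad Fermat.Agent.S56.Loc.BorelCore Fermat.Agent.S56.Loc.StrictOrdAt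
  Fermat.Agent.S56.Loc.StrictOrdMore Fermat.Agent.S56.Tan.Cocycle Fermat.Agent.S56.Places.Dict
  Fermat.Agent.S56.Flat.Bridge.Final

local notation "Qbar" => AlgebraicClosure ℚ

variable {k : Type} [Field k] [Finite k] {ρbar : ResidualGaloisRep k} {p : ℕ} [Fact p.Prime]
  [Algebra (ZMod p) k] (hpk : (p : k) = 0)

/-- `det ρ̄` is ramified at `p` (helper2's SO-RAM at `primeLocalPlace (pPrime p)`) -/
theorem exists_det_ne_one (hp2 : p ≠ 2)
    (hdetbar : (GaloisRepAdic.ofResidualGaloisRep ρbar).DetIsCyclotomic p) :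
    ∃ σ ∈ (primeLocalPlace (pPrime p)).inertiaSubgroupIn ℚ, LinearMap.det (ρbar.ρ σ) ≠ 1 :=
  Fermat.Agent.S56.Loc.CycloRamified.exists_mem_inertia_det_ne_one p hp2 ρbar hdetbar
    (primeLocalPlace (pPrime p)) (liesOverPrime_primeLocalPlace (pPrime p))

theorem exists_rho_ne_one (hp2 : p ≠ 2)
    (hdetbar : (GaloisRepAdic.ofResidualGaloisRep ρbar).DetIsCyclotomic p) :
    ∃ σ ∈ (primeLocalPlace (pPrime p)).inertiaSubgroupIn ℚ, ρbar.ρ σ ≠ 1 := by
  obtain ⟨σ, hσ, hd⟩ := exists_det_ne_one hp2 hdetbar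
  exact ⟨σ, hσ, fun h => hd (by rw [h, map_one])⟩

/-- **`HypFD1` holds** (FL-D, lift form). -/
theorem hypFD1 (hp2 : p ≠ 2) (h2 : (2 : k) ≠ 0)
    (hdetbar : (GaloisRepAdic.ofResidualGaloisRep ρbar).DetIsCyclotomic p) :
    HypFD1 ρbar p hpk := by
  intro ρA m hdetA hfl b hb
  exact Fermat.Agent.S56.Flat.PThree.Main.cocycle_sub_mem_W1_of_isFlatAt m (pPrime p) hpk h2 hdetA
    hp2 hpk hfl hb (exists_det_ne_one hp2 hdetbar)

include hpk in
/-- **`HypFD2` holds** (FL-D, residual twin). -/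
theorem hypFD2 (hp2 : p ≠ 2)
    (hdetbar : (GaloisRepAdic.ofResidualGaloisRep ρbar).DetIsCyclotomic p) :
    HypFD2 ρbar p := by
  rintro ρA m - hfl ⟨v₀, hv₀, hstab, hunr⟩
  obtain ⟨b, hb0⟩ := exists_basis_of_ne_zero ρbar.finrank_eq hv₀
  refine Fermat.Agent.S56.Flat.PThree.Main.exists_isSOBasis_of_isFlatAt' m (pPrime p) hp2 hpk hfl
    (b := b) (fun τ => ?_) (fun σ hσ => ?_) (exists_rho_ne_one hp2 hdetbar)
  · obtain ⟨a, ha⟩ := hstab τ
    exact isUT_of_apply_eq_smul b (x := a) (by rw [hb0]; exact ha)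
  · rw [hb0]
    exact hunr σ hσ

/-- **`hdim_p_fl` for the flat condition of record `flSpan`** from `hLEC` and the two finite-level
hypotheses of FL-C. -/
theorem finrank_flSpan_add_le_local' (hp2 : p ≠ 2) (h2 : (2 : k) ≠ 0)
    (hdetbar : (GaloisRepAdic.ofResidualGaloisRep ρbar).DetIsCyclotomic p)
    [hM : IsDiscrete (localLevel (primeLocalToGlobal (pPrime p)))
      (Rep.res (primeLocalToGlobal (pPrime p)) (ad0 ρbar p))]
    [IsDiscrete (localLevel (primeLocalToGlobal (pPrime p)))
      (Rep.res (primeLocalToGlobal (pPrime p)) (ad0' ρbar p))]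
    (hLEC : ∀ (Y : Rep (ZMod p) (primeLocalGaloisGroup (pPrime p)))
      [IsDiscrete (localLevel (primeLocalToGlobal (pPrime p))) Y] [FiniteDimensional (ZMod p) Y],
      finrank (ZMod p) (levelCohomology (localLevel (primeLocalToGlobal (pPrime p))) Y 1)
        = finrank (ZMod p) Y
          + finrank (ZMod p) (levelCohomology (localLevel (primeLocalToGlobal (pPrime p))) Y 0)
          + finrank (ZMod p) (levelCohomology (localLevel (primeLocalToGlobal (pPrime p))) Y 2))
    (hR3 : HypR3 ρbar p) (hFLC : HypFLC ρbar p) :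
    finrank (ZMod p)
        ↥(@flSpan k _ ρbar p _ _ hpk (localLevel (primeLocalToGlobal (pPrime p))) hM)
        + finrank (ZMod p) (levelCohomology (localLevel (primeLocalToGlobal (pPrime p)))
            (Rep.res (primeLocalToGlobal (pPrime p)) (ad0' ρbar p)) 0)
        + 2 * finrank (ZMod p) k
      ≤ finrank (ZMod p) (levelCohomology (localLevel (primeLocalToGlobal (pPrime p)))
          (Rep.res (primeLocalToGlobal (pPrime p)) (ad0 ρbar p)) 1) :=
  finrank_flSpan_add_le_local hpk hp2 h2 hLEC (hypFD1 hpk hp2 h2 hdetbar)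
    (hypFD2 hpk hp2 hdetbar) hR3 hFLC

end Fermat.Agent.S56.Flat.Bridge.FDInst
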