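/-
S56 / block F (FLAT), leaf FL-EF part 2 (helper17): THE TWO FINITE-LEVEL HYPOTHESES `HypR3`, `HypFLC`
OF `Bridge/Final` FROM THE ONE-CHARACTER BOUNDS AND THE IRREDUCIBLE COUNT OF FL-C.

For `L` of the family, `Γ = Gal(L/ℚ_p)`, `Γ₀ = LocalGalois.inertia L`, `ω = detChar hL`:

* named inputs (FLC-Main, helper20): `HypChar1` (`b k(φ) ≤ 1`), `HypChar0` (`b k(φ) ≤ 0` if
  `φ|Γ₀ ≠ ω|Γ₀`), `HypIrr` (`b(ad⁰ rhoL) ≤ 1` for irreducible `rhoL`);
* the Borel flag on `adL` (helper27's `Count/Reducible` in flag-coordinate form with helper19's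
  `BorelCore.coef`): `flag_hC`, `flag_hA`, `flag_hB`, `flag_hinj`, `flag_hsurj`;
* **`hypR3`** : `HypR3 ρbar p` (all odd `p`);
* **`hypFLC`** : `HypFLC ρbar p` (all odd `p`; the reducible case with both diagonal characters
  ramified uses the cyclicity of the tame inertia, `InertiaDict.chi_eq_on_inertia`);
* **`finrank_flSpan_add_le_local''`** : `hdim_p_fl` for the flat condition of record from `hLEC` and
  the three inputs.
-/
import Mathlib
import Fermat.Agent.S56.Flat.Bridge.InertiaDict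
import Fermat.Agent.S56.Flat.Bridge.FDInst

set_option autoImplicit false
set_option linter.unusedSectionVars false

namespace Fermat.Agent.S56.Flat.Bridge.Discharge

open Module groupCohomology ExtCitation Fermat.Agent.S55.Level Fermat.Agent.S56.Ad
  Fermat.Agent.S56.Loc.BorelCore Fermat.Agent.S56.Loc.StrictOrdAt
  Fermat.Agent.S56.Flat.Count Fermat.Agent.S56.Flat.Count.Devissage
  Fermat.Agent.S56.Flat.Count.LocalGalois Fermat.Agent.S56.Flat.Count.IrredStructure
  Fermat.Agent.S56.Flat.Count.Ad0Rep Fermat.Agent.S56.Flat.Count.ReducibleAd0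
  Fermat.Agent.S56.Flat.Bridge.Compositum Fermat.Agent.S56.Flat.Bridge.Member
  Fermat.Agent.S56.Flat.Bridge.Instance Fermat.Agent.S56.Flat.Bridge.Main
  Fermat.Agent.S56.Flat.Bridge.Transport Fermat.Agent.S56.Flat.Bridge.Borel
  Fermat.Agent.S56.Flat.Bridge.Final Fermat.Agent.S56.Flat.Bridge.InertiaDict

local notation "Qbar" => AlgebraicClosure ℚ

variable {k : Type} [Field k] {ρbar : ResidualGaloisRep k} {p : ℕ} [Fact p.Prime]
  [Algebra (ZMod p) k]

/-! ### The named inputs -/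

/-- (C-A), crude form: `b k(φ) = h¹(k(φ)) - [φ = 1] ≤ 1` for every character of `Gal(L/ℚ_p)`,
`L` of the family. -/
def HypChar1 (ρbar : ResidualGaloisRep k) (p : ℕ) [Fact p.Prime] : Prop :=
  ∀ (L : IntermediateField ℚ_[p] (PadicAlgCl p)) (_ : L ∈ flatFamily p (trivSubgroup ρbar p))
    (φ : (L ≃ₐ[ℚ_[p]] L) →* kˣ), Devissage.b (charRep φ) ≤ 1

/-- (C-A): `b k(φ) ≤ 0` if `φ` differs from `ω = det ∘ rhoL` somewhere on the inertia group. -/
def HypChar0 (ρbar : ResidualGaloisRep k) (p : ℕ) [Fact p.Prime] [Algebra (ZMod p) k] : Prop :=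
  ∀ (L : IntermediateField ℚ_[p] (PadicAlgCl p)) (hL : L ∈ flatFamily p (trivSubgroup ρbar p))
    (φ : (L ≃ₐ[ℚ_[p]] L) →* kˣ), (∃ γ ∈ inertia L, φ γ ≠ detChar hL γ) →
      Devissage.b (charRep φ) ≤ 0

/-- (I): `b(ad⁰ rhoL) ≤ 1` for irreducible `rhoL`. -/
def HypIrr (ρbar : ResidualGaloisRep k) (p : ℕ) [Fact p.Prime] [Algebra (ZMod p) k] : Prop :=
  ∀ (L : IntermediateField ℚ_[p] (PadicAlgCl p)) (hL : L ∈ flatFamily p (trivSubgroup ρbar p)),
    IsIrred (rhoL hL) → Devissage.b (ad0Rep (rhoL hL)) ≤ 1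

/-! ### The Borel flag on `adL` -/

section Flag

variable {L : IntermediateField ℚ_[p] (PadicAlgCl p)}
  (hL : L ∈ flatFamily p (trivSubgroup ρbar p)) (b : Basis (Fin 2) k ρbar.V)
  (hT : ∀ g : L ≃ₐ[ℚ_[p]] L, mat (rhoL hL) b g 1 0 = 0)

/-- the coordinate `x ↦ x_{ij}` on `adL` -/
noncomputable def cL (i j : Fin 2) : (adL ρbar p L hL) →ₗ[k] k := coef ρbar p b i j

theorem cL_apply (i j : Fin 2) (x : Ad0 ρbar p) : cL hL b i j x = coef ρbar p b i j x := rfl

theorem chi1_eq (τ : PadicAlgCl p ≃ₐ[ℚ_[p]] PadicAlgCl p) :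
    haveI := hL.2.1.to_normal
    chi1 ρbar b (localGaloisToGlobal p) (isUT_of_mat hL hT) τ = chiA hT (resL L τ) := by
  have := hL.2.1.to_normal
  apply Units.ext
  rw [coe_chi1, coe_chiA, mat_apply, rhoL_resL, ent_apply]

theorem chi2_eq (τ : PadicAlgCl p ≃ₐ[ℚ_[p]] PadicAlgCl p) :
    haveI := hL.2.1.to_normal
    chi2 ρbar b (localGaloisToGlobal p) (isUT_of_mat hL hT) τ = chiD hT (resL L τ) := by
  have := hL.2.1.to_normal
  apply Units.ext
  rw [coe_chi2, coe_chiD, mat_apply, rhoL_resL, ent_apply]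

theorem flag_hC (g : L ≃ₐ[ℚ_[p]] L) (x : Ad0 ρbar p) :
    cL hL b 1 0 ((adL ρbar p L hL).ρ g x) = ((phi3 hT g : kˣ) : k) * cL hL b 1 0 x := by
  have := hL.2.1.to_normal
  obtain ⟨τ, rfl⟩ := exists_resL_eq hL g
  rw [adL_ρ_resL hL τ x]
  have h := coef10_ρ ρbar p b (localGaloisToGlobal p) (isUT_of_mat hL hT) τ x
  rw [chi1_eq, chi2_eq] at h
  have h3 : phi3 hT (resL L τ) = chiD hT (resL L τ) * (chiA hT (resL L τ))⁻¹ := by
    rw [phi3, MonoidHom.div_apply, div_eq_mul_inv]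
  rw [h3]
  exact h

include hT in
theorem flag_hA (g : L ≃ₐ[ℚ_[p]] L) (x : Ad0 ρbar p) (hx : cL hL b 1 0 x = 0) :
    cL hL b 0 0 ((adL ρbar p L hL).ρ g x) = cL hL b 0 0 x := by
  have := hL.2.1.to_normal
  obtain ⟨τ, rfl⟩ := exists_resL_eq hL g
  rw [adL_ρ_resL hL τ x]
  exact coef00_ρ ρbar p b (localGaloisToGlobal p) (isUT_of_mat hL hT) τ ((mem_W1 ρbar p b).2 hx)

theorem flag_hB (g : L ≃ₐ[ℚ_[p]] L) (x : Ad0 ρbar p) (hx : cL hL b 1 0 x = 0)
    (hx0 : cL hL b 0 0 x = 0) :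
    cL hL b 0 1 ((adL ρbar p L hL).ρ g x) = ((phi1 hT g : kˣ) : k) * cL hL b 0 1 x := by
  have := hL.2.1.to_normal
  obtain ⟨τ, rfl⟩ := exists_resL_eq hL g
  rw [adL_ρ_resL hL τ x]
  have h := coef01_ρ ρbar p b (localGaloisToGlobal p) (isUT_of_mat hL hT) τ
    ((mem_W0 ρbar p b).2 ⟨hx, hx0⟩)
  rw [chi1_eq, chi2_eq] at h
  have h3 : phi1 hT (resL L τ) = chiA hT (resL L τ) * (chiD hT (resL L τ))⁻¹ := by
    rw [phi1, MonoidHom.div_apply, div_eq_mul_inv]
  rw [h3]
  exact h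

theorem flag_hinj (x : Ad0 ρbar p) (h00 : cL hL b 0 0 x = 0) (h01 : cL hL b 0 1 x = 0)
    (h10 : cL hL b 1 0 x = 0) : x = 0 := by
  apply ad0_ext ρbar p b
  · rw [map_zero]; exact h00
  · rw [map_zero]; exact h01
  · rw [map_zero]; exact h10

theorem flag_hsurj (r s t : k) :
    ∃ x : Ad0 ρbar p, cL hL b 0 0 x = r ∧ cL hL b 0 1 x = s ∧ cL hL b 1 0 x = t :=
  ⟨ofCoef ρbar p b r s t, coef00_ofCoef ρbar p b r s t, coef01_ofCoef ρbar p b r s t,
    coef10_ofCoef ρbar p b r s t⟩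

end Flag

/-! ### The two hypotheses -/

section Main

variable [Finite k]

instance moduleFinite_adL {L : IntermediateField ℚ_[p] (PadicAlgCl p)}
    (hL : L ∈ flatFamily p (trivSubgroup ρbar p)) : Module.Finite k (adL ρbar p L hL) :=
  Module.Finite.of_finite

/-- `b(ad⁰ rhoL) ≤ 1` gives the count for `adL` -/
theorem h1_adL_le {L : IntermediateField ℚ_[p] (PadicAlgCl p)}
    (hL : L ∈ flatFamily p (trivSubgroup ρbar p))
    (h : Devissage.b (ad0Rep (rhoL hL)) ≤ 1) :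
    finrank k (H1 (adL ρbar p L hL)) ≤ finrank k (H0 (adL ρbar p L hL)) + 1 := by
  have h1 := Devissage.h1_congr (adLIso hL)
  have h0 := Devissage.h0_congr (adLIso hL)
  rw [Devissage.b_def, ← h1, ← h0] at h
  have h1' : Devissage.h1 (adL ρbar p L hL) = finrank k (H1 (adL ρbar p L hL)) := rfl
  have h0' : Devissage.h0 (adL ρbar p L hL) = finrank k (H0 (adL ρbar p L hL)) := rfl
  omega

/-- **`HypR3` holds** given the one-character bounds. -/
theorem hypR3 (hp2 : p ≠ 2) (hpk : (p : k) = 0)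
    (hdet : (GaloisRepAdic.ofResidualGaloisRep ρbar).DetIsCyclotomic p)
    (hc1 : HypChar1 ρbar p) (hc0 : HypChar0 ρbar p) : HypR3 ρbar p := by
  intro b hb L hL
  have := hL.1
  have := hL.2.1
  have hT := mat_of_isUT hL (isUT_of_isSOBasis hb)
  have key := Reducible.range_sub_le_one (A := adL ρbar p L hL) (cA := cL hL b 0 0)
    (cB := cL hL b 0 1) (cC := cL hL b 1 0) (φ₁ := phi1 hT) (φ₃ := phi3 hT)
    (flag_hC hL b hT) (flag_hA hL b hT) (flag_hB hL b hT)
    (fun x hA hB hC => flag_hinj hL b x hA hB hC) (flag_hsurj hL b)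
    (detChar hL) (inertia L) (hc1 L hL) (hc0 L hL) (exists_detChar_ne_one hL hp2 hpk hdet)
  have key' : (finrank k (LinearMap.range
      (groupCohomology.map (A := borelL b (isUT_of_isSOBasis hb) hL) (B := adL ρbar p L hL)
        (MonoidHom.id (L ≃ₐ[ℚ_[p]] L)) (borelι b (isUT_of_isSOBasis hb) hL) 1).hom) : ℤ)
      - (finrank k (H0 (adL ρbar p L hL)) : ℤ) ≤ 1 := key
  omega

/-- in a commutative group, `a / d = a * d` forces `d ^ 2 = 1` -/
theorem sq_eq_one_of_div_eq_mul {C : Type*} [CommGroup C] {a d : C} (h : a / d = a * d) :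
    d ^ 2 = 1 := by
  rw [div_eq_mul_inv] at h
  have h1 : d⁻¹ = d := mul_left_cancel h
  rw [pow_two]
  nth_rewrite 1 [← h1]
  exact inv_mul_cancel d

/-- **`HypFLC` holds** given the one-character bounds and the irreducible count (all odd `p`). -/
theorem hypFLC (hp2 : p ≠ 2) (hpk : (p : k) = 0)
    (hdet : (GaloisRepAdic.ofResidualGaloisRep ρbar).DetIsCyclotomic p)
    (hc1 : HypChar1 ρbar p) (hc0 : HypChar0 ρbar p) (hI : HypIrr ρbar p) : HypFLC ρbar p := by
  intro hso hsub L hL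
  have := hL.1
  have := hL.2.1
  by_cases hirr : IsIrred (rhoL hL)
  · exact h1_adL_le hL (hI L hL hirr)
  · obtain ⟨b, hT⟩ := exists_basis_of_not_isIrred (ρ := rhoL hL) finrank_V hirr
    have key := Reducible.b_le_add_chars (A := adL ρbar p L hL) (cA := cL hL b 0 0)
      (cB := cL hL b 0 1) (cC := cL hL b 1 0) (φ₁ := phi1 hT) (φ₃ := phi3 hT)
      (flag_hC hL b hT) (flag_hA hL b hT) (flag_hB hL b hT)
      (fun x hA hB hC => flag_hinj hL b x hA hB hC) (flag_hsurj hL b)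
    have hω1 := exists_detChar_ne_one hL hp2 hpk hdet
    have hone : Devissage.b (charRep (1 : (L ≃ₐ[ℚ_[p]] L) →* kˣ)) ≤ 0 := by
      obtain ⟨γ, hγ, hne⟩ := hω1
      exact hc0 L hL 1 ⟨γ, hγ, fun h => hne (by rw [← h]; rfl)⟩
    have hdetAD : ∀ γ, detChar hL γ = chiA hT γ * chiD hT γ := fun γ =>
      Units.ext (by rw [coe_detChar, det_eq_chiA_mul_chiD hT γ, Units.val_mul])
    have hor : (∃ γ ∈ inertia L, phi1 hT γ ≠ detChar hL γ) ∨
        (∃ γ ∈ inertia L, phi3 hT γ ≠ detChar hL γ) := by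
      by_contra hcon
      push Not at hcon
      obtain ⟨hcon1, hcon3⟩ := hcon
      have hD2 : ∀ γ ∈ inertia L, chiD hT γ ^ 2 = 1 := by
        intro γ hγ
        have h := hcon1 γ hγ
        rw [hdetAD, phi1, MonoidHom.div_apply] at h
        exact sq_eq_one_of_div_eq_mul h
      have hA2 : ∀ γ ∈ inertia L, chiA hT γ ^ 2 = 1 := by
        intro γ hγ
        have h := hcon3 γ hγ
        rw [hdetAD, phi3, MonoidHom.div_apply, mul_comm] at h
        exact sq_eq_one_of_div_eq_mul h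
      have hAne : ∃ γ ∈ inertia L, chiA hT γ ≠ 1 := by
        by_contra h
        push Not at h
        exact hsub (hasUnramSub_of_chiA hL hT h)
      have hDne : ∃ γ ∈ inertia L, chiD hT γ ≠ 1 := by
        by_contra h
        push Not at h
        exact hso ⟨b, isSOBasis_of_chiD hL hT h⟩
      have heq := chi_eq_on_inertia hp2 (chiA hT) (chiD hT) hA2 hD2 hAne hDne
      obtain ⟨γ, hγ, hne⟩ := hω1
      exact hne (by rw [hdetAD, ← heq γ hγ, ← pow_two, hA2 γ hγ])
    have hb : Devissage.b (adL ρbar p L hL) ≤ 1 := by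
      rcases hor with h | h
      · have h1 := hc0 L hL _ h
        have h3 := hc1 L hL (phi3 hT)
        omega
      · have h3 := hc0 L hL _ h
        have h1 := hc1 L hL (phi1 hT)
        omega
    rw [Devissage.b_def] at hb
    have h1' : Devissage.h1 (adL ρbar p L hL) = finrank k (H1 (adL ρbar p L hL)) := rfl
    have h0' : Devissage.h0 (adL ρbar p L hL) = finrank k (H0 (adL ρbar p L hL)) := rfl
    omega

/-- **`hdim_p_fl` for the flat condition of record `flSpan`** (consumer shape of `Asm/Plug`), from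
`hLEC` (LEC) and the three finite-level inputs of FL-C (`HypChar1`, `HypChar0`, `HypIrr`). -/
theorem finrank_flSpan_add_le_local'' (hpk : (p : k) = 0) (hp2 : p ≠ 2) (h2 : (2 : k) ≠ 0)
    (hdetbar : (GaloisRepAdic.ofResidualGaloisRep ρbar).DetIsCyclotomic p)
    [hM : IsDiscrete (localLevel (primeLocalToGlobal (pPrime p)))
      (Rep.res (primeLocalToGlobal (pPrime p)) (ad0 ρbar p))]
    [IsDiscrete (localLevel (primeLocalToGlobal (pPrime p)))
      (Rep.res (primeLocalToGlobal (pPrime p)) (ad0' ρbar p))]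
    (hLEC : ∀ (Y : Rep (ZMod p) (primeLocalGaloisGroup (pPrime p)))
      [IsDiscrete (localLevel (primeLocalToGlobal (pPrime p))) Y] [FiniteDimensional (ZMod p) Y],
      finrank (ZMod p) (levelCohomology (localLevel (primeLocalToGlobal (pPrime p))) Y 1)
        = finrank (ZMod p) Y
          + finrank (ZMod p) (levelCohomology (localLevel (primeLocalToGlobal (pPrime p))) Y 0)
          + finrank (ZMod p) (levelCohomology (localLevel (primeLocalToGlobal (pPrime p))) Y 2))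
    (hc1 : HypChar1 ρbar p) (hc0 : HypChar0 ρbar p) (hI : HypIrr ρbar p) :
    finrank (ZMod p)
        ↥(@flSpan k _ ρbar p _ _ hpk (localLevel (primeLocalToGlobal (pPrime p))) hM)
        + finrank (ZMod p) (levelCohomology (localLevel (primeLocalToGlobal (pPrime p)))
            (Rep.res (primeLocalToGlobal (pPrime p)) (ad0' ρbar p)) 0)
        + 2 * finrank (ZMod p) k
      ≤ finrank (ZMod p) (levelCohomology (localLevel (primeLocalToGlobal (pPrime p)))
          (Rep.res (primeLocalToGlobal (pPrime p)) (ad0 ρbar p)) 1) :=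
  FDInst.finrank_flSpan_add_le_local' hpk hp2 h2 hdetbar hLEC
    (hypR3 hp2 hpk hdetbar hc1 hc0) (hypFLC hp2 hpk hdetbar hc1 hc0 hI)

end Main

end Fermat.Agent.S56.Flat.Bridge.Discharge
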