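/-
S56 / block F (FLAT), leaf FL-EF part 2, (EF-1) (helper17): COMPOSITA and the FLAT LOCAL CONDITION.

* `FontaineProp.sup` : Fontaine's property `(P_m)` (`KummerBound.FontaineProp`) is closed under
  composita (a ring homomorphism `𝒪_{L₁L₂} → 𝒪_E/𝔪^k` restricts to `𝒪_{L_i}`);
* `flatFamily p N` : the finite Galois extensions `L/ℚ_p` inside `PadicAlgCl p` with `FontaineProp`
  whose Galois group `Gal(ℚ̄_p/L)` is contained in a given subgroup `N` (in the application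
  `N = ker ρ̄|G_p ⊓ Gal(ℚ̄_p/ℚ_p(ζ_p))`); closed under `⊔` (`sup_mem_flatFamily`);
* `flatCond 𝒰 N X := ⨆ L ∈ flatFamily p N, H1ur 𝒰 Gal(ℚ̄_p/L) X` : the classes inflated from
  `H¹(Gal(L/ℚ_p), X)` for SOME such `L` (a submodule for free: the family is directed);
  `H1ur_le_flatCond`, and the bound `finrank_flatCond_le` : a uniform bound for the
  `H1ur 𝒰 Gal(ℚ̄_p/L) X` bounds `flatCond` (abstract form: `finrank_iSup_le_of_directed`).
-/
import Mathlib
import Fermat.Agent.S56.Flat.KummerBound.Defs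
import Fermat.Agent.S56.PT.Unram

set_option autoImplicit false
set_option linter.unusedSectionVars false

namespace Fermat.Agent.S56.Flat.Bridge.Compositum

open Fermat.Agent.S56.Flat.KummerBound Fermat.Agent.S55.Level Fermat.Agent.S56.PT.Unram
  IsLocalRing Module

/-! ### Directed suprema of finite dimensional subspaces -/

section Directed

variable {k V : Type*} [Field k] [AddCommGroup V] [Module k V]

/-- A directed family of finite dimensional subspaces of uniformly bounded dimension: the supremum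
is a member of the family (or `⊥`). -/
theorem exists_iSup_eq_of_directed {ι : Sort*} [Nonempty ι] (f : ι → Submodule k V)
    (hdir : Directed (· ≤ ·) f) (hfin : ∀ i, Module.Finite k (f i)) (B : ℕ)
    (hB : ∀ i, finrank k (f i) ≤ B) : ∃ i, ⨆ j, f j = f i := by
  classical
  -- an index of maximal dimension
  have hex : ∃ n, ∃ i, finrank k (f i) = n := ⟨_, Classical.arbitrary ι, rfl⟩
  have hbd : ∀ n, (∃ i, finrank k (f i) = n) → n ≤ B := by
    rintro n ⟨i, rfl⟩
    exact hB i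
  obtain ⟨i, hi⟩ := Nat.findGreatest_spec (P := fun n => ∃ i, finrank k (f i) = n)
    (hbd _ hex.choose_spec) hex.choose_spec
  have hmax : ∀ j, finrank k (f j) ≤ finrank k (f i) := by
    intro j
    rw [hi]
    exact Nat.le_findGreatest (hB j) ⟨j, rfl⟩
  refine ⟨i, le_antisymm (iSup_le fun j => ?_) (le_iSup f i)⟩
  obtain ⟨z, hiz, hjz⟩ := hdir i j
  have := hfin z
  have heq : f i = f z := Submodule.eq_of_le_of_finrank_le hiz (hmax z)
  rw [heq]
  exact hjz

theorem finrank_iSup_le_of_directed {ι : Sort*} (f : ι → Submodule k V)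
    (hdir : Directed (· ≤ ·) f) (hfin : ∀ i, Module.Finite k (f i)) (B : ℕ)
    (hB : ∀ i, finrank k (f i) ≤ B) : finrank k (⨆ j, f j : Submodule k V) ≤ B := by
  rcases isEmpty_or_nonempty ι with h | h
  · rw [iSup_of_empty, finrank_bot]
    exact Nat.zero_le _
  · obtain ⟨i, hi⟩ := exists_iSup_eq_of_directed f hdir hfin B hB
    rw [hi]
    exact hB i

end Directed

/-! ### `H1ur` is antitone in the subgroup -/

section Antitone

universe u

variable {k G : Type u} [CommRing k] [Group G] (𝒰 : LevelStructure G) (X : Rep.{u} k G)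
  [IsDiscrete 𝒰 X]

theorem H1ur_antitone {I I' : Subgroup G} (h : I ≤ I') : H1ur 𝒰 I' X ≤ H1ur 𝒰 I X := by
  rintro x ⟨z, hz, rfl⟩
  exact ⟨z, fun τ hτ => hz τ (h hτ), rfl⟩

end Antitone

/-! ### Composita -/

variable {p : ℕ} [Fact p.Prime]

/-- The inclusion `𝒪_{L₁} → 𝒪_{L₂}` for `L₁ ≤ L₂`. -/
noncomputable def intInclusion {L₁ L₂ : IntermediateField ℚ_[p] (PadicAlgCl p)} (h : L₁ ≤ L₂) :
    integralClosure ℤ_[p] L₁ →ₐ[ℤ_[p]] integralClosure ℤ_[p] L₂ :=
  ((IntermediateField.inclusion h).restrictScalars ℤ_[p]).mapIntegralClosure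

/-- **Fontaine's property is closed under composita.** -/
theorem FontaineProp.sup {L₁ L₂ : IntermediateField ℚ_[p] (PadicAlgCl p)}
    (h₁ : FontaineProp p L₁) (h₂ : FontaineProp p L₂) : FontaineProp p (L₁ ⊔ L₂) := by
  intro E _ e k he hk ⟨f⟩
  exact sup_le (h₁ E e k he hk ⟨f.comp (intInclusion le_sup_left).toRingHom⟩)
    (h₂ E e k he hk ⟨f.comp (intInclusion le_sup_right).toRingHom⟩)

/-! ### The family and the flat condition -/

variable (p) in
/-- The finite Galois extensions of `ℚ_p` inside `PadicAlgCl p` with Fontaine's property whose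
absolute Galois group is contained in `N`. -/
def flatFamily (N : Subgroup (PadicAlgCl p ≃ₐ[ℚ_[p]] PadicAlgCl p)) : Set (IntermediateField ℚ_[p] (PadicAlgCl p)) :=
  {L | FiniteDimensional ℚ_[p] L ∧ IsGalois ℚ_[p] L ∧ FontaineProp p L ∧ L.fixingSubgroup ≤ N}

theorem mem_flatFamily_iff {N : Subgroup (PadicAlgCl p ≃ₐ[ℚ_[p]] PadicAlgCl p)} {L : IntermediateField ℚ_[p] (PadicAlgCl p)} :
    L ∈ flatFamily p N ↔
      FiniteDimensional ℚ_[p] L ∧ IsGalois ℚ_[p] L ∧ FontaineProp p L ∧ L.fixingSubgroup ≤ N :=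
  Iff.rfl

theorem sup_mem_flatFamily {N : Subgroup (PadicAlgCl p ≃ₐ[ℚ_[p]] PadicAlgCl p)} {L₁ L₂ : IntermediateField ℚ_[p] (PadicAlgCl p)}
    (h₁ : L₁ ∈ flatFamily p N) (h₂ : L₂ ∈ flatFamily p N) : L₁ ⊔ L₂ ∈ flatFamily p N := by
  obtain ⟨hf₁, hg₁, hP₁, hN₁⟩ := h₁
  obtain ⟨hf₂, hg₂, hP₂, -⟩ := h₂
  refine ⟨IntermediateField.finiteDimensional_sup L₁ L₂, ?_, FontaineProp.sup hP₁ hP₂, ?_⟩
  · have : Normal ℚ_[p] (L₁ ⊔ L₂ : IntermediateField ℚ_[p] (PadicAlgCl p)) :=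
      IntermediateField.normal_sup ℚ_[p] (PadicAlgCl p) L₁ L₂
    exact { }
  · rw [IntermediateField.fixingSubgroup_sup]
    exact inf_le_left.trans hN₁

section Cond

variable (𝒰 : LevelStructure (PadicAlgCl p ≃ₐ[ℚ_[p]] PadicAlgCl p)) (N : Subgroup (PadicAlgCl p ≃ₐ[ℚ_[p]] PadicAlgCl p)) {k : Type} [Field k] (X : Rep.{0} k (PadicAlgCl p ≃ₐ[ℚ_[p]] PadicAlgCl p))
  [IsDiscrete 𝒰 X]

/-- **The flat local condition**: the classes in `H¹(𝒰, X)` having a cocycle representative which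
vanishes on `Gal(ℚ̄_p/L)` for some `L ∈ flatFamily p N`. -/
noncomputable def flatCond : Submodule k (levelCohomology 𝒰 X 1) :=
  ⨆ L : flatFamily p N, H1ur 𝒰 (L : IntermediateField ℚ_[p] (PadicAlgCl p)).fixingSubgroup X

theorem H1ur_le_flatCond {L : IntermediateField ℚ_[p] (PadicAlgCl p)} (hL : L ∈ flatFamily p N) :
    H1ur 𝒰 L.fixingSubgroup X ≤ flatCond 𝒰 N X :=
  le_iSup (fun L : flatFamily p N =>
    H1ur 𝒰 (L : IntermediateField ℚ_[p] (PadicAlgCl p)).fixingSubgroup X) ⟨L, hL⟩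

/-- Membership in the flat condition: a level cocycle vanishing on `Gal(ℚ̄_p/L)`,
`L ∈ flatFamily p N`. -/
theorem levelH1π_mem_flatCond {L : IntermediateField ℚ_[p] (PadicAlgCl p)}
    (hL : L ∈ flatFamily p N) (z : levelCocycles₁ 𝒰 X)
    (hz : ∀ τ ∈ L.fixingSubgroup, z.1 τ = 0) : levelH1π 𝒰 X z ∈ flatCond 𝒰 N X :=
  H1ur_le_flatCond 𝒰 N X hL (levelH1π_mem_H1ur 𝒰 _ X z hz)

theorem directed_H1ur : Directed (· ≤ ·) (fun L : flatFamily p N =>
    H1ur 𝒰 (L : IntermediateField ℚ_[p] (PadicAlgCl p)).fixingSubgroup X) := by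
  rintro ⟨L₁, h₁⟩ ⟨L₂, h₂⟩
  refine ⟨⟨L₁ ⊔ L₂, sup_mem_flatFamily h₁ h₂⟩, ?_, ?_⟩
  · exact H1ur_antitone 𝒰 X (IntermediateField.fixingSubgroup_antitone le_sup_left)
  · exact H1ur_antitone 𝒰 X (IntermediateField.fixingSubgroup_antitone le_sup_right)

/-- **The bound**: a uniform bound for the dimensions of the `H1ur 𝒰 Gal(ℚ̄_p/L) X`,
`L ∈ flatFamily p N`, bounds the dimension of the flat condition. -/
theorem finrank_flatCond_le (B : ℕ)
    (hfin : ∀ L ∈ flatFamily p N, Module.Finite k (H1ur 𝒰 L.fixingSubgroup X))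
    (hB : ∀ L ∈ flatFamily p N, finrank k (H1ur 𝒰 L.fixingSubgroup X) ≤ B) :
    finrank k (flatCond 𝒰 N X) ≤ B :=
  finrank_iSup_le_of_directed _ (directed_H1ur 𝒰 N X) (fun L => hfin L.1 L.2) B
    (fun L => hB L.1 L.2)

/-- The flat condition is ONE `H1ur 𝒰 Gal(ℚ̄_p/L) X` (when the family is non-empty). -/
theorem exists_flatCond_eq (B : ℕ) (hne : (flatFamily p N).Nonempty)
    (hfin : ∀ L ∈ flatFamily p N, Module.Finite k (H1ur 𝒰 L.fixingSubgroup X))
    (hB : ∀ L ∈ flatFamily p N, finrank k (H1ur 𝒰 L.fixingSubgroup X) ≤ B) :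
    ∃ L ∈ flatFamily p N, flatCond 𝒰 N X = H1ur 𝒰 L.fixingSubgroup X := by
  have : Nonempty (flatFamily p N) := hne.to_subtype
  obtain ⟨L, hL⟩ := exists_iSup_eq_of_directed _ (directed_H1ur 𝒰 N X) (fun L => hfin L.1 L.2) B
    (fun L => hB L.1 L.2)
  exact ⟨L.1, L.2, hL⟩

end Cond

end Fermat.Agent.S56.Flat.Bridge.Compositum
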