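/-
S56 / block F (FLAT), leaf FL-EF part 2, (EF-3a) (helper17): THE FLAT LOCAL CONDITION AT `p` AND THE
LIFT-FORM MEMBERSHIP.

* `trivSubgroup ρbar p ≤ G_p = Gal(ℚ̄_p/ℚ_p)` : the elements acting trivially on `ρ̄` and on `μ_p`;
* `flCond ρbar p 𝒰 := Compositum.flatCond 𝒰 (trivSubgroup ρbar p) (ad⁰ρ̄|G_p)` : the classes inflated
  from `H¹(Gal(L/ℚ_p), ad⁰ρ̄)` for some finite Galois `L/ℚ_p` with Fontaine's property, splitting `ρ̄`
  and containing `ζ_p`  (the `𝓛_p` of `moonshots` row 53, §0; unconditional in `ρ̄`);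
* **`levelH1π_mem_flCond_of_isFlatAt`** : for a lift `ρA` of `ρ̄` to `k[ε]` with cyclotomic
  determinant which is FLAT at `p` (frozen `IsFlatAt`), the class of the restriction to `G_p` of the
  cocycle `m.cocycle` of any model `m` of `ρA` lies in `flCond`  (`L := ℚ_p(V_A)`, helper6's
  `PointsField`).
-/
import Mathlib
import Fermat.Agent.S56.Flat.Bridge.Compositum
import Fermat.Agent.S56.Flat.PointsField
import Fermat.Agent.S56.Tan.Cocycle
import Fermat.Agent.S56.Loc.BorelCore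

set_option autoImplicit false
set_option linter.unusedSectionVars false

namespace Fermat.Agent.S56.Flat.Bridge.Member

open Module groupCohomology Fermat.Agent.S53 Fermat.Agent.S56.Ad Fermat.Agent.S56.Tan.Cocycle
  Fermat.Agent.S56.Loc.BorelCore Fermat.Agent.S55.Level Fermat.Agent.S56.PT.Unram
  Fermat.Agent.S56.Flat.Bridge.Compositum Fermat.Agent.S56.Flat.PointsField
  Fermat.Agent.S56.Flat.KummerBound Fermat.Agent.S19.Abs

local notation "Qbar" => AlgebraicClosure ℚ
local notation "Γ" => (AlgebraicClosure ℚ ≃ₐ[ℚ] AlgebraicClosure ℚ)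

variable {k : Type} [Field k] (ρbar : ResidualGaloisRep k) (p : ℕ) [Fact p.Prime]

/-- The elements of the local Galois group acting trivially on `μ_p`. -/
def cycloSubgroup : Subgroup (PadicAlgCl p ≃ₐ[ℚ_[p]] PadicAlgCl p) where
  carrier := {τ | ∀ μ : Qbar, μ ^ p = 1 → localGaloisToGlobal p τ μ = μ}
  one_mem' := fun μ _ => by rw [map_one]; rfl
  mul_mem' := by
    intro a b ha hb μ hμ
    rw [map_mul, AlgEquiv.mul_apply, hb μ hμ, ha μ hμ]
  inv_mem' := by
    intro a ha μ hμ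
    rw [map_inv]
    show (localGaloisToGlobal p a).symm μ = μ
    rw [AlgEquiv.symm_apply_eq, ha μ hμ]

/-- The elements of the local Galois group acting trivially on `ρ̄` and on `μ_p`. -/
noncomputable def trivSubgroup : Subgroup (PadicAlgCl p ≃ₐ[ℚ_[p]] PadicAlgCl p) :=
  (ρbar.ρ.comp (localGaloisToGlobal p)).ker ⊓ cycloSubgroup p

theorem mem_trivSubgroup_iff (τ : PadicAlgCl p ≃ₐ[ℚ_[p]] PadicAlgCl p) :
    τ ∈ trivSubgroup ρbar p ↔ ρbar.ρ (localGaloisToGlobal p τ) = 1 ∧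
      ∀ μ : Qbar, μ ^ p = 1 → localGaloisToGlobal p τ μ = μ := by
  rw [trivSubgroup, Subgroup.mem_inf, MonoidHom.mem_ker]
  rfl

/-! ### The flat condition -/

section Cond

variable [Algebra (ZMod p) k] (𝒰 : LevelStructure (PadicAlgCl p ≃ₐ[ℚ_[p]] PadicAlgCl p))
  [IsDiscrete 𝒰 (Mres ρbar p (localGaloisToGlobal p))]

/-- **The flat local condition at `p`** (`𝓛_p` of `moonshots` row 53 §0). -/
noncomputable def flCond :
    Submodule (ZMod p) (levelCohomology 𝒰 (Mres ρbar p (localGaloisToGlobal p)) 1) :=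
  flatCond 𝒰 (trivSubgroup ρbar p) (Mres ρbar p (localGaloisToGlobal p))

end Cond

/-! ### A flat lift is trivial on `Gal(ℚ̄_p/ℚ_p(V_A))` -/

section Lift

variable {ρbar p}
variable {ρA : GaloisRepAdic (DualNumber k)} (m : Model ρbar ρA)

theorem natCast_dualNumber_eq_zero (hpk : (p : k) = 0) : ((p : ℕ) : DualNumber k) = 0 := by
  ext
  · rw [TrivSqZeroExt.fst_natCast, hpk, TrivSqZeroExt.fst_zero]
  · rw [TrivSqZeroExt.snd_natCast, TrivSqZeroExt.snd_zero]

include m in
/-- `ρ̄ σ = 1` where `ρA σ = 1`. -/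
theorem rhobar_eq_one_of_rho_eq_one {σ : Γ} (h : ρA.ρ σ = 1) : ρbar.ρ σ = 1 := by
  have h1 : m.M σ = 1 := (m.rho_eq_one_iff σ).mp h
  have h2 : resMat ρbar σ = 1 := by
    rw [← m.redM_apply σ, h1, map_one]
  apply (toM ρbar).injective
  rw [toM_rho, h2, map_one]

/-- `σ` fixes `μ_p` where `ρA σ = 1` (cyclotomic determinant). -/
theorem apply_eq_of_rho_eq_one [Algebra (ZMod p) k] (hpk : (p : k) = 0)
    (hdet : ρA.DetIsCyclotomic p) {σ : Γ} (h : ρA.ρ σ = 1) (μ : Qbar) (hμ : μ ^ p = 1) :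
    σ μ = μ := by
  obtain ⟨a, ha⟩ := exists_pow_eq p σ
  have h1 := hdet.2 1 σ a ha
  rw [pow_one, natCast_dualNumber_eq_zero hpk, Ideal.span_singleton_eq_bot.mpr rfl, Ideal.mem_bot,
    sub_eq_zero, h, map_one] at h1
  -- `a = 1` in `k`, hence in `ZMod p`
  have h2 : ((a : ℕ) : k) = 1 := by
    have := congrArg TrivSqZeroExt.fst h1
    rw [TrivSqZeroExt.fst_natCast, TrivSqZeroExt.fst_one] at this
    exact this.symm
  have h3 : ((a : ℕ) : ZMod p) = 1 := by
    apply (algebraMap (ZMod p) k).injective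
    rw [map_natCast, map_one, h2]
  have hp1 : 1 < p := (Fact.out : p.Prime).one_lt
  have h4 : a % p = 1 := by
    have := (ZMod.natCast_eq_natCast_iff' a 1 p).mp (by rw [h3, Nat.cast_one])
    rwa [Nat.mod_eq_of_lt hp1] at this
  have hμ' : μ ^ p ^ 1 = 1 := by rwa [pow_one]
  rw [ha μ hμ', ← Nat.mod_add_div a p, pow_add, pow_mul, hμ, one_pow, mul_one, h4, pow_one]

section Flat

variable [Finite k]

instance finite_dualNumber : Finite (DualNumber k) :=
  Finite.of_injective (fun x : DualNumber k => (TrivSqZeroExt.fst x, TrivSqZeroExt.snd x))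
    (fun _ _ h => TrivSqZeroExt.ext (congrArg Prod.fst h) (congrArg Prod.snd h))

instance finite_dualNumber_quot (I : Ideal (DualNumber k)) : Finite (DualNumber k ⧸ I) :=
  Finite.of_surjective (Ideal.Quotient.mk I) Ideal.Quotient.mk_surjective

/-- **A flat lift to `k[ε]` is trivial on `Gal(ℚ̄_p/L)` for a finite Galois `L/ℚ_p` with Fontaine's
property** (`L = ℚ_p(V_A)`). -/
theorem exists_field_of_isFlatAt (hpk : (p : k) = 0) (hfl : ρA.IsFlatAt p) :
    ∃ L : IntermediateField ℚ_[p] (PadicAlgCl p), FiniteDimensional ℚ_[p] L ∧ IsGalois ℚ_[p] L ∧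
      FontaineProp p L ∧ ∀ τ ∈ L.fixingSubgroup, ρA.ρ (localGaloisToGlobal p τ) = 1 := by
  obtain ⟨Hs, hHs, hF⟩ := exists_of_isFlatAt ρA hfl (⊥ : Ideal (DualNumber k))
    (by rw [natCast_dualNumber_eq_zero hpk]; exact Ideal.zero_mem _)
  have := finite_level ρA (⊥ : Ideal (DualNumber k))
  refine ⟨pointsField p Hs, finiteDimensional_pointsField hHs, isGalois_pointsField hHs, hF,
    fun τ hτ => ?_⟩
  have h1 : ∀ x ∈ pointsField p Hs, τ x = x := fun x hx =>
    (IntermediateField.mem_fixingSubgroup_iff _ τ).mp hτ x hx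
  have h2 := (forall_eq_iff_act hHs τ).mp h1
  refine LinearMap.ext fun v => ?_
  have h3 := h2 (Submodule.Quotient.mk v)
  rw [levelAct_mk, Submodule.Quotient.eq, Submodule.bot_smul, Submodule.mem_bot, sub_eq_zero] at h3
  rw [h3, Module.End.one_apply]

end Flat

section Member

variable [Finite k] [Algebra (ZMod p) k]

include m in
/-- the field of points of a flat lift belongs to the family defining `flCond` -/
theorem exists_mem_flatFamily_of_isFlatAt (hpk : (p : k) = 0) (hdet : ρA.DetIsCyclotomic p)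
    (hfl : ρA.IsFlatAt p) :
    ∃ L ∈ flatFamily p (trivSubgroup ρbar p),
      ∀ τ ∈ L.fixingSubgroup, ρA.ρ (localGaloisToGlobal p τ) = 1 := by
  obtain ⟨L, h1, h2, h3, h4⟩ := exists_field_of_isFlatAt hpk hfl
  refine ⟨L, ⟨h1, h2, h3, fun τ hτ => ?_⟩, h4⟩
  rw [mem_trivSubgroup_iff]
  exact ⟨rhobar_eq_one_of_rho_eq_one m (h4 τ hτ),
    apply_eq_of_rho_eq_one hpk hdet (h4 τ hτ)⟩

/-- **(FLAT at `p`, lift form)** for a lift `ρA` of `ρ̄` to `k[ε]` with cyclotomic determinant which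
is flat at `p`, the restriction to the local Galois group of the cocycle of any model of `ρA`
represents a class of the flat condition `flCond`. -/
theorem levelH1π_mem_flCond_of_isFlatAt (hpk : (p : k) = 0) (hdet : ρA.DetIsCyclotomic p)
    (hfl : ρA.IsFlatAt p) (𝒰 : LevelStructure (PadicAlgCl p ≃ₐ[ℚ_[p]] PadicAlgCl p))
    [IsDiscrete 𝒰 (Mres ρbar p (localGaloisToGlobal p))]
    (z : levelCocycles₁ 𝒰 (Mres ρbar p (localGaloisToGlobal p)))
    (hz : ∀ τ, z.1 τ = m.cocycle p hpk hdet (localGaloisToGlobal p τ)) :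
    levelH1π 𝒰 (Mres ρbar p (localGaloisToGlobal p)) z ∈ flCond ρbar p 𝒰 := by
  obtain ⟨L, hL, h⟩ := exists_mem_flatFamily_of_isFlatAt m hpk hdet hfl
  refine levelH1π_mem_flatCond 𝒰 _ _ hL z fun τ hτ => ?_
  rw [hz τ]
  exact m.cocycle_eq_zero_of_rho_eq_one p hpk hdet (h τ hτ)

/-- The same statement in the vocabulary of `primeLocalGaloisGroup (pPrime p)` /
`primeLocalToGlobal (pPrime p)` (definitionally the same objects). -/
theorem levelH1π_mem_flCond_of_isFlatAt' (hpk : (p : k) = 0) (hdet : ρA.DetIsCyclotomic p)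
    (hfl : ρA.IsFlatAt p)
    (𝒰 : LevelStructure (ExtCitation.primeLocalGaloisGroup (ExtCitation.pPrime p)))
    [hdisc : IsDiscrete 𝒰 (Mres ρbar p (ExtCitation.primeLocalToGlobal (ExtCitation.pPrime p)))]
    (z : levelCocycles₁ 𝒰 (Mres ρbar p (ExtCitation.primeLocalToGlobal (ExtCitation.pPrime p))))
    (hz : ∀ τ, z.1 τ =
      m.cocycle p hpk hdet (ExtCitation.primeLocalToGlobal (ExtCitation.pPrime p) τ)) :
    levelH1π 𝒰 (Mres ρbar p (ExtCitation.primeLocalToGlobal (ExtCitation.pPrime p))) z ∈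
      @flCond k _ ρbar p _ _ 𝒰 hdisc :=
  @levelH1π_mem_flCond_of_isFlatAt k _ ρbar p _ ρA m _ _ hpk hdet hfl 𝒰 hdisc z hz

end Member

end Lift

end Fermat.Agent.S56.Flat.Bridge.Member
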