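/-
S56 / block F (FLAT), leaf FL-EF part 2, (EF-3b) (helper17): THE INSTANCE OF THE FINITE-LEVEL BRIDGE
FOR THE LOCAL GALOIS GROUP.

`G_p := Gal(PadicAlgCl p/ℚ_p)`, `L/ℚ_p` finite Galois inside `PadicAlgCl p`, `Γ_L := Gal(L/ℚ_p)`,
`resL L : G_p →* Γ_L` the restriction (`AlgEquiv.restrictNormalHom`):

* `resL_surjective`, `ker_resL : (resL L).ker = L.fixingSubgroup`,
  `exists_mem_localLevel_le` (Krasner, S55 `LocalKrasner`) : the kernel contains a member of
  `localLevel (localGaloisToGlobal p)`;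
* `descend ρ h : Representation k Γ_L V` for a representation `ρ` of `G_p` trivial on `Gal(ℚ̄_p/L)`,
  `descend_resL : descend ρ h (resL L τ) = ρ τ`;
* `compat_of_descend` : `FiniteLevel.Compat` for `X : Rep k₀ G_p` and `A : Rep k Γ_L` as soon as
  `e (X.ρ τ x) = A.ρ (resL L τ) (e x)`;
* `padicEmbedding_mem_of_le_cycloSubgroup` : `L ∋ ι(μ)` for every `p`-th root of unity `μ` when
  `Gal(ℚ̄_p/L) ≤ cycloSubgroup p`; `exists_primitiveRoot_mem`.
-/
import Mathlib
import Fermat.Agent.S56.Flat.Bridge.FiniteLevel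
import Fermat.Agent.S56.Flat.Bridge.Member
import Fermat.Agent.S55.LocalKrasner
import Fermat.Agent.S55.LevelGalois

set_option autoImplicit false
set_option linter.unusedSectionVars false

namespace Fermat.Agent.S56.Flat.Bridge.Instance

open Module Fermat.Agent.S55.Level Fermat.Agent.S55.LocalDict
  Fermat.Agent.S56.Flat.Bridge.FiniteLevel Fermat.Agent.S56.Flat.Bridge.Member

local notation "Qbar" => AlgebraicClosure ℚ

variable {p : ℕ} [Fact p.Prime] (L : IntermediateField ℚ_[p] (PadicAlgCl p))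

section Res

variable [Normal ℚ_[p] L]

/-- The restriction `Gal(ℚ̄_p/ℚ_p) → Gal(L/ℚ_p)`. -/
noncomputable def resL : (PadicAlgCl p ≃ₐ[ℚ_[p]] PadicAlgCl p) →* (L ≃ₐ[ℚ_[p]] L) :=
  AlgEquiv.restrictNormalHom L

theorem resL_apply (τ : PadicAlgCl p ≃ₐ[ℚ_[p]] PadicAlgCl p) (x : L) :
    ((resL L τ x : L) : PadicAlgCl p) = τ x :=
  AlgEquiv.restrictNormal_commutes τ L x

theorem resL_surjective : Function.Surjective (resL L) :=
  AlgEquiv.restrictNormalHom_surjective (PadicAlgCl p)

theorem ker_resL : (resL L).ker = L.fixingSubgroup :=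
  IntermediateField.restrictNormalHom_ker L

end Res

/-! ### The kernel is open (Krasner) -/

section Open

variable [FiniteDimensional ℚ_[p] L]

/-- `Gal(ℚ̄_p/L)` contains a member of the level structure of the local group. -/
theorem exists_mem_localLevel_le :
    ∃ W ∈ (localLevel (localGaloisToGlobal p)).sets, W ≤ L.fixingSubgroup := by
  obtain ⟨F, hF, hFn, hle⟩ := exists_comap_fixingSubgroup_le p L
  exact ⟨F.fixingSubgroup.comap (localGaloisToGlobal p),
    ⟨normal_comap_fixingSubgroup p F, F, hF, le_rfl⟩, hle⟩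

end Open

/-! ### Descending representations -/

section Descend

variable [Normal ℚ_[p] L] {k V : Type*} [CommSemiring k] [AddCommMonoid V] [Module k V]
  (ρ : Representation k (PadicAlgCl p ≃ₐ[ℚ_[p]] PadicAlgCl p) V)
  (h : ∀ τ ∈ L.fixingSubgroup, ρ τ = 1)

include h in
theorem apply_eq_of_resL_eq {τ τ' : PadicAlgCl p ≃ₐ[ℚ_[p]] PadicAlgCl p}
    (hτ : resL L τ = resL L τ') : ρ τ = ρ τ' := by
  have hmem : τ'⁻¹ * τ ∈ L.fixingSubgroup := by
    rw [← ker_resL, MonoidHom.mem_ker, map_mul, map_inv, hτ, inv_mul_cancel]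
  have h1 : τ = τ' * (τ'⁻¹ * τ) := by group
  rw [h1, map_mul, h _ hmem, mul_one]

/-- A representation of `G_p` trivial on `Gal(ℚ̄_p/L)` descends to `Gal(L/ℚ_p)`. -/
noncomputable def descend : Representation k (L ≃ₐ[ℚ_[p]] L) V where
  toFun γ := ρ (Function.surjInv (resL_surjective L) γ)
  map_one' := by
    rw [← map_one ρ]
    exact apply_eq_of_resL_eq L ρ h (by
      rw [Function.surjInv_eq (resL_surjective L), map_one])
  map_mul' γ γ' := by
    rw [← map_mul ρ]
    exact apply_eq_of_resL_eq L ρ h (by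
      rw [Function.surjInv_eq (resL_surjective L), map_mul,
        Function.surjInv_eq (resL_surjective L), Function.surjInv_eq (resL_surjective L)])

theorem descend_resL (τ : PadicAlgCl p ≃ₐ[ℚ_[p]] PadicAlgCl p) :
    descend L ρ h (resL L τ) = ρ τ :=
  apply_eq_of_resL_eq L ρ h (Function.surjInv_eq _ _)

end Descend

/-! ### The compatibility package -/

section Compat

universe v

variable [FiniteDimensional ℚ_[p] L] [Normal ℚ_[p] L]
  {k₀ : Type} [CommRing k₀] (X : Rep.{0} k₀ (PadicAlgCl p ≃ₐ[ℚ_[p]] PadicAlgCl p))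
  {k : Type} [CommRing k] (A : Rep.{0} k (L ≃ₐ[ℚ_[p]] L)) (e : X ≃+ A)

/-- `FiniteLevel.Compat` for the local Galois group and `Gal(L/ℚ_p)`. -/
theorem compat_of_equivariant
    (he : ∀ (τ : PadicAlgCl p ≃ₐ[ℚ_[p]] PadicAlgCl p) (x : X), e (X.ρ τ x) = A.ρ (resL L τ) (e x)) :
    Compat (localLevel (localGaloisToGlobal p)) X A (resL L) e where
  surj := resL_surjective L
  open_ker := by
    rw [ker_resL]
    exact exists_mem_localLevel_le L
  equivariant := he

end Compat

/-! ### Roots of unity -/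

section Roots

variable [FiniteDimensional ℚ_[p] L]

/-- If `Gal(ℚ̄_p/L)` fixes `μ_p` then `L` contains (the images of) the `p`-th roots of unity. -/
theorem padicEmbedding_mem_of_le_cycloSubgroup (hL : L.fixingSubgroup ≤ cycloSubgroup p)
    (μ : Qbar) (hμ : μ ^ p = 1) : padicEmbedding p μ ∈ L := by
  have h1 : padicEmbedding p μ ∈ IntermediateField.fixedField L.fixingSubgroup := by
    rw [IntermediateField.mem_fixedField_iff]
    intro τ hτ
    rw [← padicEmbedding_localGaloisToGlobal, hL hτ μ hμ]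
  rwa [InfiniteGalois.fixedField_fixingSubgroup] at h1

/-- `L` contains a primitive `p`-th root of unity. -/
theorem exists_primitiveRoot_mem (hL : L.fixingSubgroup ≤ cycloSubgroup p) :
    ∃ ζ : L, IsPrimitiveRoot ζ p := by
  have hp : NeZero ((p : ℕ) : Qbar) := ⟨Nat.cast_ne_zero.mpr (Fact.out : p.Prime).ne_zero⟩
  obtain ⟨ζ₀, hζ₀⟩ := HasEnoughRootsOfUnity.exists_primitiveRoot Qbar p
  have hmem := padicEmbedding_mem_of_le_cycloSubgroup L hL ζ₀ hζ₀.pow_eq_one
  have h1 : IsPrimitiveRoot (padicEmbedding p ζ₀) p :=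
    hζ₀.map_of_injective (padicEmbedding p).toRingHom.injective
  refine ⟨⟨padicEmbedding p ζ₀, hmem⟩, ?_⟩
  exact IsPrimitiveRoot.of_map_of_injective (f := L.val) (by exact h1) L.val.injective

end Roots

end Fermat.Agent.S56.Flat.Bridge.Instance
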