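/-
S56 / block F (FLAT), leaf FL-EF part 2, (EF-4) (helper17): THE DIMENSION BOUND FOR THE FLAT
CONDITION FROM THE FINITE-LEVEL COUNT.

For `L ∈ flatFamily p (trivSubgroup ρbar p)` (finite Galois over `ℚ_p`, Fontaine's property,
splitting `ρ̄` and `μ_p`):

* `adLocK ρbar p` : `ad⁰ρ̄|G_p` as a `k`-linear representation; `adL ρbar p L hL : Rep k Gal(L/ℚ_p)`
  its descent (`adL_ρ_resL`: `(adL …).ρ (resL L τ) x = ad0RepnK ρbar p (r τ) x`);
* `compat_adL` : the `FiniteLevel.Compat` package (`e` = identity of the carrier `Ad0 ρbar p`);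
* `finrank_H1ur_fix_le` : `h¹(Gal(L/ℚ_p), ad⁰) ≤ h⁰ + m` over `k` gives
  `dim_{𝔽_p} H1ur 𝒰 Gal(ℚ̄_p/L) (ad⁰ρ̄|G_p) ≤ dim_{𝔽_p} H⁰(G_p, ad⁰ρ̄) + m [k : 𝔽_p]`;
* **`finrank_flCond_le`** : the same bound for `flCond ρbar p 𝒰` from the finite-level bounds for
  all `L` of the family (`𝒰 = localLevel (localGaloisToGlobal p)`).
-/
import Mathlib
import Fermat.Agent.S56.Flat.Bridge.Instance
import Fermat.Agent.S56.Loc.StrictOrdCond

set_option autoImplicit false
set_option linter.unusedSectionVars false

namespace Fermat.Agent.S56.Flat.Bridge.Main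

open Module groupCohomology Fermat.Agent.S55.Level Fermat.Agent.S56.Ad
  Fermat.Agent.S56.Loc.BorelCore Fermat.Agent.S56.PT.Unram
  Fermat.Agent.S56.Flat.Bridge.FiniteLevel Fermat.Agent.S56.Flat.Bridge.Compositum
  Fermat.Agent.S56.Flat.Bridge.Member Fermat.Agent.S56.Flat.Bridge.Instance

local notation "Qbar" => AlgebraicClosure ℚ

variable {k : Type} [Field k] (ρbar : ResidualGaloisRep k) (p : ℕ) [Fact p.Prime]
  [Algebra (ZMod p) k]

/-- `ad⁰ρ̄` restricted to the local Galois group, as a `k`-linear representation. -/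
noncomputable def adLocK : Representation k (PadicAlgCl p ≃ₐ[ℚ_[p]] PadicAlgCl p) (Ad0 ρbar p) :=
  (ad0RepnK ρbar p).comp (localGaloisToGlobal p)

theorem adLocK_apply (τ : PadicAlgCl p ≃ₐ[ℚ_[p]] PadicAlgCl p) (x : Ad0 ρbar p) :
    adLocK ρbar p τ x = ad0RepnK ρbar p (localGaloisToGlobal p τ) x := rfl

variable {ρbar p}

theorem adLocK_eq_one {L : IntermediateField ℚ_[p] (PadicAlgCl p)}
    (hL : L.fixingSubgroup ≤ trivSubgroup ρbar p) :
    ∀ τ ∈ L.fixingSubgroup, adLocK ρbar p τ = 1 := by
  intro τ hτ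
  have h1 : ρbar.ρ (localGaloisToGlobal p τ) = 1 := ((mem_trivSubgroup_iff ρbar p τ).mp (hL hτ)).1
  have h2 := ad0_ρ_eq_one_of_rho_eq_one ρbar p h1
  refine LinearMap.ext fun x => ?_
  rw [adLocK_apply, ← ad0_ρ_apply, h2]
  rfl

variable (ρbar p) in
/-- **`ad⁰ρ̄` as a representation of `Gal(L/ℚ_p)`** for `L` in the family. -/
noncomputable def adL (L : IntermediateField ℚ_[p] (PadicAlgCl p))
    (hL : L ∈ flatFamily p (trivSubgroup ρbar p)) : Rep.{0} k (L ≃ₐ[ℚ_[p]] L) :=
  haveI := hL.2.1.to_normal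
  Rep.of (descend L (adLocK ρbar p) (adLocK_eq_one hL.2.2.2))

section Family

variable {L : IntermediateField ℚ_[p] (PadicAlgCl p)}
  (hL : L ∈ flatFamily p (trivSubgroup ρbar p))

/-- the action of `adL` on the image of `τ` is conjugation by `ρ̄(r τ)` -/
theorem adL_ρ_resL (τ : PadicAlgCl p ≃ₐ[ℚ_[p]] PadicAlgCl p) (x : Ad0 ρbar p) :
    haveI := hL.2.1.to_normal
    (adL ρbar p L hL).ρ (resL L τ) x = ad0RepnK ρbar p (localGaloisToGlobal p τ) x := by
  have := hL.2.1.to_normal
  show descend L (adLocK ρbar p) (adLocK_eq_one hL.2.2.2) (resL L τ) x = _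
  rw [descend_resL]
  rfl

/-- the identity of the carrier `Ad0 ρbar p` -/
noncomputable def idEquiv : (Mres ρbar p (localGaloisToGlobal p)) ≃+ (adL ρbar p L hL) :=
  AddEquiv.refl (Ad0 ρbar p)

theorem idEquiv_apply (x : Ad0 ρbar p) : idEquiv hL x = x := rfl

/-- **the compatibility package** for `ad⁰ρ̄|G_p` and its descent to `Gal(L/ℚ_p)` -/
theorem compat_adL :
    haveI := hL.2.1.to_normal
    Compat (localLevel (localGaloisToGlobal p)) (Mres ρbar p (localGaloisToGlobal p))
      (adL ρbar p L hL) (resL L) (idEquiv hL) := by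
  have := hL.2.1.to_normal
  have := hL.1
  refine compat_of_equivariant L _ _ _ fun τ x => ?_
  exact (adL_ρ_resL hL τ x).symm

end Family

/-! ### The bounds -/

section Bounds

variable [Finite k]
  [IsDiscrete (localLevel (localGaloisToGlobal p)) (Mres ρbar p (localGaloisToGlobal p))]

theorem card_eq_pow_finrank : Nat.card k = p ^ finrank (ZMod p) k := by
  have : Module.Finite (ZMod p) k := Module.Finite.of_finite
  rw [Module.natCard_eq_pow_finrank (K := ZMod p) (V := k), Nat.card_zmod]

instance finite_Ad0 : Finite (Ad0 ρbar p) :=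
  Module.finite_of_finite k

instance finite_adL {L : IntermediateField ℚ_[p] (PadicAlgCl p)}
    (hL : L ∈ flatFamily p (trivSubgroup ρbar p)) : Finite (adL ρbar p L hL) :=
  inferInstanceAs (Finite (Ad0 ρbar p))

/-- `H1ur` for `Gal(ℚ̄_p/L)` is finite. -/
theorem finite_H1ur_fix {L : IntermediateField ℚ_[p] (PadicAlgCl p)}
    (hL : L ∈ flatFamily p (trivSubgroup ρbar p)) :
    Finite (H1ur (localLevel (localGaloisToGlobal p)) L.fixingSubgroup
      (Mres ρbar p (localGaloisToGlobal p))) := by
  have := hL.2.1.to_normal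
  have := hL.1
  have hc := compat_adL hL
  rw [← ker_resL L]
  exact Finite.of_equiv _ (inflEquiv hc).toEquiv

/-- **The finite-level bound transported to `H1ur`**: a bound `h¹ ≤ h⁰ + m` over `k` for
`Gal(L/ℚ_p)` acting on `ad⁰ρ̄` gives the bound for the classes inflated from `Gal(L/ℚ_p)`. -/
theorem finrank_H1ur_fix_le {L : IntermediateField ℚ_[p] (PadicAlgCl p)}
    (hL : L ∈ flatFamily p (trivSubgroup ρbar p)) (m : ℕ)
    (hb : finrank k (H1 (adL ρbar p L hL)) ≤ finrank k (H0 (adL ρbar p L hL)) + m) :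
    finrank (ZMod p) (H1ur (localLevel (localGaloisToGlobal p)) L.fixingSubgroup
      (Mres ρbar p (localGaloisToGlobal p))) ≤
      finrank (ZMod p) (levelCohomology (localLevel (localGaloisToGlobal p))
        (Mres ρbar p (localGaloisToGlobal p)) 0) + finrank (ZMod p) k * m := by
  have := hL.2.1.to_normal
  have := hL.1
  have hc := compat_adL hL
  rw [← ker_resL L]
  exact finrank_H1ur_le hc card_eq_pow_finrank m hb

/-- **The bound for the flat condition** from the finite-level counts. -/
theorem finrank_flCond_le (m : ℕ)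
    (hFLC : ∀ (L : IntermediateField ℚ_[p] (PadicAlgCl p))
      (hL : L ∈ flatFamily p (trivSubgroup ρbar p)),
      finrank k (H1 (adL ρbar p L hL)) ≤ finrank k (H0 (adL ρbar p L hL)) + m) :
    finrank (ZMod p) (flCond ρbar p (localLevel (localGaloisToGlobal p))) ≤
      finrank (ZMod p) (levelCohomology (localLevel (localGaloisToGlobal p))
        (Mres ρbar p (localGaloisToGlobal p)) 0) + finrank (ZMod p) k * m := by
  refine finrank_flatCond_le _ _ _ _ (fun L hL => ?_) (fun L hL => finrank_H1ur_fix_le hL m (hFLC L hL))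
  have := finite_H1ur_fix hL
  exact Module.Finite.of_finite

end Bounds

/-! ### `hdim_p` for the flat condition -/

section Dim

open ExtCitation Fermat.Agent.S55.LevelDuality Fermat.Agent.S56.PT.LocalDuality
  Fermat.Agent.S56.Loc.StrictOrdCond

variable [Finite k]

/-- **`hdim_p` for the flat condition, at the level of record** (consumer shape (B) of `Asm/Bound`,
in the vocabulary of `primeLocalGaloisGroup (pPrime p)`): from the local Euler characteristic
formula `hLEC` (named, = helper9's LEC) and the finite-level counts `hFLC` (named, = FL-C with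
`m = 1`):  `dim flCond + h⁰(G_p, (ad⁰ρ̄)') + 2d ≤ h¹(G_p, ad⁰ρ̄)`. -/
theorem finrank_flCond_add_le_local (hp2 : p ≠ 2) (h2 : (2 : k) ≠ 0)
    [hM : IsDiscrete (localLevel (primeLocalToGlobal (pPrime p)))
      (Rep.res (primeLocalToGlobal (pPrime p)) (ad0 ρbar p))]
    [IsDiscrete (localLevel (primeLocalToGlobal (pPrime p)))
      (Rep.res (primeLocalToGlobal (pPrime p)) (ad0' ρbar p))]
    (hLEC : ∀ (Y : Rep (ZMod p) (primeLocalGaloisGroup (pPrime p)))
      [IsDiscrete (localLevel (primeLocalToGlobal (pPrime p))) Y] [FiniteDimensional (ZMod p) Y],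
      finrank (ZMod p) (levelCohomology (localLevel (primeLocalToGlobal (pPrime p))) Y 1)
        = finrank (ZMod p) Y
          + finrank (ZMod p) (levelCohomology (localLevel (primeLocalToGlobal (pPrime p))) Y 0)
          + finrank (ZMod p) (levelCohomology (localLevel (primeLocalToGlobal (pPrime p))) Y 2))
    (hFLC : ∀ (L : IntermediateField ℚ_[p] (PadicAlgCl p))
      (hL : L ∈ flatFamily p (trivSubgroup ρbar p)),
      finrank k (H1 (adL ρbar p L hL)) ≤ finrank k (H0 (adL ρbar p L hL)) + 1) :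
    finrank (ZMod p) ↥(@flCond k _ ρbar p _ _ (localLevel (primeLocalToGlobal (pPrime p))) hM)
        + finrank (ZMod p) (levelCohomology (localLevel (primeLocalToGlobal (pPrime p)))
            (Rep.res (primeLocalToGlobal (pPrime p)) (ad0' ρbar p)) 0)
        + 2 * finrank (ZMod p) k
      ≤ finrank (ZMod p) (levelCohomology (localLevel (primeLocalToGlobal (pPrime p)))
          (Rep.res (primeLocalToGlobal (pPrime p)) (ad0 ρbar p)) 1) := by
  have hfk : Module.Finite (ZMod p) k := Module.Finite.of_finite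
  obtain ⟨_, t, hΨ, hfin⟩ :=
    Fermat.Agent.S56.Loc.EulerP.Additive.exists_monoDuality_local (p := p) hp2 (pPrime p)
  have hd : IsDiscrete (localLevel (primeLocalToGlobal (pPrime p)))
      ((Mres ρbar p (primeLocalToGlobal (pPrime p))).dualTwist
        ((cycloChar p).comp (primeLocalToGlobal (pPrime p)))) :=
    isDiscrete_dualTwist _ _ _
  have hres : finrank (ZMod p) (levelCohomology (localLevel (primeLocalToGlobal (pPrime p)))
        (Rep.res (primeLocalToGlobal (pPrime p)) (ad0' ρbar p)) 0)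
      = finrank (ZMod p) (levelCohomology (localLevel (primeLocalToGlobal (pPrime p)))
          ((Mres ρbar p (primeLocalToGlobal (pPrime p))).dualTwist
            ((cycloChar p).comp (primeLocalToGlobal (pPrime p)))) 0) :=
    finrank_levelCohomology_congr _
      (Fermat.Agent.S55.DualTwist.res_dualTwist (cycloChar p) (ad0 ρbar p)
        (primeLocalToGlobal (pPrime p))) 0
  rw [hres, ← finrank_two_eq_zero hΨ (Mres ρbar p (primeLocalToGlobal (pPrime p)))]
  have hLM := hLEC (Mres ρbar p (primeLocalToGlobal (pPrime p)))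
  have hdM : finrank (ZMod p) (Mres ρbar p (primeLocalToGlobal (pPrime p)))
      = finrank (ZMod p) k * 3 := finrank_ad0 ρbar p h2
  rw [hdM] at hLM
  have hfl := @finrank_flCond_le k _ ρbar p _ _ _ hM 1 hFLC
  rw [mul_one] at hfl
  have hfl' : finrank (ZMod p)
      ↥(@flCond k _ ρbar p _ _ (localLevel (primeLocalToGlobal (pPrime p))) hM) ≤
      finrank (ZMod p) (levelCohomology (localLevel (primeLocalToGlobal (pPrime p)))
        (Mres ρbar p (primeLocalToGlobal (pPrime p))) 0) + finrank (ZMod p) k := hfl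
  show finrank (ZMod p) ↥(@flCond k _ ρbar p _ _ (localLevel (primeLocalToGlobal (pPrime p))) hM)
      + finrank (ZMod p) (levelCohomology (localLevel (primeLocalToGlobal (pPrime p)))
        (Mres ρbar p (primeLocalToGlobal (pPrime p))) 2) + 2 * finrank (ZMod p) k
    ≤ finrank (ZMod p) (levelCohomology (localLevel (primeLocalToGlobal (pPrime p)))
        (Mres ρbar p (primeLocalToGlobal (pPrime p))) 1)
  omega

end Dim

end Fermat.Agent.S56.Flat.Bridge.Main
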