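/-
S56 / block F (FLAT), leaf FL-EF part 2 (helper17): TRANSPORT between the bridge object
`Main.adL ρbar p L hL` and the shared object `Count.Ad0Rep.ad0Rep` of FL-C.

For `L ∈ flatFamily p (trivSubgroup ρbar p)`:

* `rhoL hL : Representation k Gal(L/ℚ_p) ρ̄.V` : `ρ̄|G_p` descended to `Gal(L/ℚ_p)`
  (`rhoL_resL : rhoL hL (resL L τ) = ρ̄ (r τ)`);
* `adLIso hL : adL ρbar p L hL ≅ ad0Rep (rhoL hL)` (the identity of the carrier);
* **`hFLC_of_b_le`** : `Devissage.b (ad0Rep (rhoL hL)) ≤ 1` for all `L` of the family gives the named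
  hypothesis `hFLC` of `Main.finrank_flCond_add_le_local`;
* the properties of `rhoL` needed to apply FL-C: `charpoly_rhoL` (frozen `hsplit`), `det_rhoL`
  (determinant), `finrank` of `ρ̄.V`.
-/
import Mathlib
import Fermat.Agent.S56.Flat.Bridge.Main
import Fermat.Agent.S56.Flat.Count.Ad0Rep
import Fermat.Agent.S56.Flat.Count.Devissage
import Fermat.Agent.S56.Flat.KummerBound.Main
import Fermat.Agent.S56.TW.SelectH

set_option autoImplicit false
set_option linter.unusedSectionVars false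

namespace Fermat.Agent.S56.Flat.Bridge.Transport

open Module groupCohomology Polynomial Fermat.Agent.S56.Ad
  Fermat.Agent.S56.Flat.Bridge.Compositum Fermat.Agent.S56.Flat.Bridge.Member
  Fermat.Agent.S56.Flat.Bridge.Instance Fermat.Agent.S56.Flat.Bridge.Main
  Fermat.Agent.S56.Flat.Count.Ad0Rep Fermat.Agent.S56.Flat.Count

local notation "Qbar" => AlgebraicClosure ℚ

variable {k : Type} [Field k] {ρbar : ResidualGaloisRep k} {p : ℕ} [Fact p.Prime]
  [Algebra (ZMod p) k] {L : IntermediateField ℚ_[p] (PadicAlgCl p)}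

theorem rho_eq_one_of_mem_fixingSubgroup (hL : L ∈ flatFamily p (trivSubgroup ρbar p)) :
    ∀ τ ∈ L.fixingSubgroup, (ρbar.ρ.comp (localGaloisToGlobal p)) τ = 1 :=
  fun τ hτ => ((mem_trivSubgroup_iff ρbar p τ).mp (hL.2.2.2 hτ)).1

/-- `ρ̄|G_p` descended to `Gal(L/ℚ_p)`. -/
noncomputable def rhoL (hL : L ∈ flatFamily p (trivSubgroup ρbar p)) :
    Representation k (L ≃ₐ[ℚ_[p]] L) ρbar.V :=
  haveI := hL.2.1.to_normal
  descend L (ρbar.ρ.comp (localGaloisToGlobal p)) (rho_eq_one_of_mem_fixingSubgroup hL)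

variable (hL : L ∈ flatFamily p (trivSubgroup ρbar p))

theorem rhoL_resL (τ : PadicAlgCl p ≃ₐ[ℚ_[p]] PadicAlgCl p) :
    haveI := hL.2.1.to_normal
    rhoL hL (resL L τ) = ρbar.ρ (localGaloisToGlobal p τ) := by
  have := hL.2.1.to_normal
  exact descend_resL L _ _ τ

/-- every element of `Gal(L/ℚ_p)` is a restriction -/
theorem exists_resL_eq (g : L ≃ₐ[ℚ_[p]] L) :
    haveI := hL.2.1.to_normal
    ∃ τ : PadicAlgCl p ≃ₐ[ℚ_[p]] PadicAlgCl p, resL L τ = g := by
  have := hL.2.1.to_normal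
  exact resL_surjective L g

/-- the action of `adL` is conjugation by `rhoL` -/
theorem coe_adL_ρ_apply (g : L ≃ₐ[ℚ_[p]] L) (x : Ad0 ρbar p) :
    Ad0.toEnd ρbar p ((adL ρbar p L hL).ρ g x : Ad0 ρbar p)
      = rhoL hL g * Ad0.toEnd ρbar p x * rhoL hL g⁻¹ := by
  have := hL.2.1.to_normal
  obtain ⟨τ, rfl⟩ := exists_resL_eq hL g
  rw [adL_ρ_resL hL τ x, ← map_inv, rhoL_resL, rhoL_resL, map_inv]
  rfl

/-- the identity of the carrier, as a linear equivalence -/
noncomputable def adLLinearEquiv : (adL ρbar p L hL) ≃ₗ[k] (ad0Rep (rhoL hL)) :=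
  LinearEquiv.refl k ↥(LinearMap.ker (LinearMap.trace k ρbar.V))

theorem adLLinearEquiv_apply (x : Ad0 ρbar p) :
    toEnd (rhoL hL) (adLLinearEquiv hL x) = Ad0.toEnd ρbar p x := rfl

/-- **`adL ≅ ad0Rep (rhoL)`** : the bridge object is the shared object of FL-C. -/
noncomputable def adLIso : adL ρbar p L hL ≅ ad0Rep (rhoL hL) :=
  Rep.mkIso (Representation.Equiv.mk (adLLinearEquiv hL) (fun g => by
    refine LinearMap.ext fun x => ad0Rep_ext (rhoL hL) ?_
    show toEnd (rhoL hL) (adLLinearEquiv hL ((adL ρbar p L hL).ρ g x))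
      = toEnd (rhoL hL) ((ad0Rep (rhoL hL)).ρ g (adLLinearEquiv hL x))
    rw [toEnd_ρ_apply]
    exact coe_adL_ρ_apply hL g x))

/-- **`hFLC` from the bound `b(ad⁰(ρ̄|Gal(L/ℚ_p))) ≤ 1`** of FL-C. -/
theorem hFLC_of_b_le
    (h : ∀ (L : IntermediateField ℚ_[p] (PadicAlgCl p))
      (hL : L ∈ flatFamily p (trivSubgroup ρbar p)), Devissage.b (ad0Rep (rhoL hL)) ≤ 1) :
    ∀ (L : IntermediateField ℚ_[p] (PadicAlgCl p))
      (hL : L ∈ flatFamily p (trivSubgroup ρbar p)),
      finrank k (H1 (adL ρbar p L hL)) ≤ finrank k (H0 (adL ρbar p L hL)) + 1 := by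
  intro L hL
  have h1 := Devissage.h1_congr (adLIso hL)
  have h0 := Devissage.h0_congr (adLIso hL)
  have hb := h L hL
  rw [Devissage.b_def, ← h1, ← h0] at hb
  have h1' : Devissage.h1 (adL ρbar p L hL) = finrank k (H1 (adL ρbar p L hL)) := rfl
  have h0' : Devissage.h0 (adL ρbar p L hL) = finrank k (H0 (adL ρbar p L hL)) := rfl
  omega

/-! ### The properties of `rhoL` and of `L` consumed by FL-C -/

section Props

open Fermat.Agent.S56.Flat.KummerBound Fermat.Agent.S56.TW.SelectH ExtCitation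

theorem finrank_V : finrank k ρbar.V = 2 := ρbar.finrank_eq

instance finite_V : Module.Finite k ρbar.V :=
  Module.finite_of_finrank_pos (by rw [finrank_V]; norm_num)

/-- the frozen `hsplit` for `rhoL` -/
theorem charpoly_rhoL
    (hsplit : ∀ σ : Qbar ≃ₐ[ℚ] Qbar, ∃ α β : k,
      LinearMap.charpoly (ρbar.ρ σ) = (X - C α) * (X - C β)) (g : L ≃ₐ[ℚ_[p]] L) :
    ∃ α β : k, LinearMap.charpoly (rhoL hL g) = (X - C α) * (X - C β) := by
  obtain ⟨τ, rfl⟩ := exists_resL_eq hL g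
  rw [rhoL_resL]
  exact hsplit _

/-- invariant subspaces of `rhoL` are the `G_p`-invariant subspaces of `ρ̄` -/
theorem rhoL_mem_iff (W : Submodule k ρbar.V) :
    (∀ g : L ≃ₐ[ℚ_[p]] L, ∀ x ∈ W, rhoL hL g x ∈ W) ↔
      ∀ τ : PadicAlgCl p ≃ₐ[ℚ_[p]] PadicAlgCl p, ∀ x ∈ W,
        ρbar.ρ (localGaloisToGlobal p τ) x ∈ W := by
  have := hL.2.1.to_normal
  constructor
  · intro h τ x hx
    rw [← rhoL_resL hL τ]
    exact h _ x hx
  · intro h g x hx
    obtain ⟨τ, rfl⟩ := exists_resL_eq hL g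
    rw [rhoL_resL]
    exact h τ x hx

include hL in
/-- `L` is "peu ramifiée" (FL-B, helper18). -/
theorem isPeuRamifie (hp2 : p ≠ 2) : IsPeuRamifie p L :=
  haveI := hL.1
  haveI := hL.2.1
  Fermat.Agent.S56.Flat.KummerBound.Main.isPeuRamifie_of_fontaineProp hp2 L hL.2.2.1

include hL in
theorem fixingSubgroup_le_cycloSubgroup : L.fixingSubgroup ≤ cycloSubgroup p :=
  hL.2.2.2.trans inf_le_right

include hL in
/-- `L` contains a primitive `p`-th root of unity. -/
theorem exists_primitiveRoot : ∃ ζ : L, IsPrimitiveRoot ζ p :=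
  haveI := hL.1
  exists_primitiveRoot_mem L (fixingSubgroup_le_cycloSubgroup hL)

/-- the action of the local Galois group on the `p`-th roots of unity of `PadicAlgCl p` is through
the mod-`p` cyclotomic character of the image in the global Galois group -/
theorem apply_root (τ : PadicAlgCl p ≃ₐ[ℚ_[p]] PadicAlgCl p) (ζ : PadicAlgCl p) (hζ : ζ ^ p = 1) :
    τ ζ = ζ ^ ((cycloChar p (localGaloisToGlobal p τ) : (ZMod p)ˣ) : ZMod p).val := by
  have hp : NeZero ((p : ℕ) : Qbar) := ⟨Nat.cast_ne_zero.mpr (Fact.out : p.Prime).ne_zero⟩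
  obtain ⟨ζ₀, hζ₀⟩ := HasEnoughRootsOfUnity.exists_primitiveRoot Qbar p
  have h1 : IsPrimitiveRoot (padicEmbedding p ζ₀) p :=
    hζ₀.map_of_injective (padicEmbedding p).toRingHom.injective
  obtain ⟨i, -, rfl⟩ := h1.eq_pow_of_pow_eq_one hζ
  rw [map_pow, ← padicEmbedding_localGaloisToGlobal, cycloChar_apply_root p _ hζ₀.pow_eq_one,
    map_pow, ← pow_mul, ← pow_mul, mul_comm]

/-- **the determinant of `rhoL` is the mod-`p` cyclotomic character of `Gal(L/ℚ_p)`**: for every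
`g` there is `a : ℕ` with `det (rhoL g) = a` in `k` and `g ζ = ζ ^ a` for all `p`-th roots of unity
of `L`. -/
theorem det_rhoL_spec (hdet : (GaloisRepAdic.ofResidualGaloisRep ρbar).DetIsCyclotomic p)
    (g : L ≃ₐ[ℚ_[p]] L) :
    ∃ a : ℕ, LinearMap.det (rhoL hL g) = (a : k) ∧ ∀ ζ : L, ζ ^ p = 1 → g ζ = ζ ^ a := by
  have := hL.2.1.to_normal
  have : NeZero p := ⟨(Fact.out : p.Prime).ne_zero⟩
  obtain ⟨τ, rfl⟩ := exists_resL_eq hL g
  refine ⟨((cycloChar p (localGaloisToGlobal p τ) : (ZMod p)ˣ) : ZMod p).val, ?_, ?_⟩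
  · rw [rhoL_resL, det_rho_eq_cycloChar ρbar p hdet, ← map_natCast (algebraMap (ZMod p) k),
      ZMod.natCast_zmod_val]
  · intro ζ hζ
    apply Subtype.ext
    rw [resL_apply]
    have hζ' : (ζ : PadicAlgCl p) ^ p = 1 := by
      have := congrArg (Subtype.val) hζ
      simpa using this
    rw [apply_root τ _ hζ']
    simp

end Props

end Fermat.Agent.S56.Flat.Bridge.Transport
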