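/-
S56 / block F (FLAT), leaf FL-EF part 2 (helper17): THE FINAL FLAT PLUG.  From the two one-character
bounds of FLC-Char in the shape of helper20's `Count/Main.lean`
(`CharBoundA L (detChar (rhoL hL))`, `CharBoundB L (detChar (rhoL hL))` for all `L` of the family):

* `hypChar1_of`, `hypChar0_of`, `hypIrr_of` : the three inputs of `Bridge/Discharge`;
* **`hypR3_of_charBounds`**, **`hypFLC_of_charBounds`** : the two named hypotheses `hR3`, `hFLC` of
  `Bridge/Final` (all odd `p`);
* **`finrank_flSpan_add_le_local_of_charBounds`** : `hfl_dim` of `Asm/Plug.result_of_local` for the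
  flat condition of record `flSpan`, from `hLEC` and the two bounds.
-/
import Mathlib
import Fermat.Agent.S56.Flat.Bridge.Discharge
import Fermat.Agent.S56.Flat.Count.Main

set_option autoImplicit false
set_option linter.unusedSectionVars false

namespace Fermat.Agent.S56.Flat.Bridge.Plug

open Module groupCohomology ExtCitation Fermat.Agent.S55.Level Fermat.Agent.S56.Ad
  Fermat.Agent.S56.Flat.Count.Devissage Fermat.Agent.S56.Flat.Count.LocalGalois
  Fermat.Agent.S56.Flat.Count.IrredStructure Fermat.Agent.S56.Flat.Count.Ad0Rep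
  Fermat.Agent.S56.Flat.Bridge.Compositum Fermat.Agent.S56.Flat.Bridge.Member
  Fermat.Agent.S56.Flat.Bridge.Transport Fermat.Agent.S56.Flat.Bridge.Final
  Fermat.Agent.S56.Flat.Bridge.Discharge

local notation "Qbar" => AlgebraicClosure ℚ

variable {k : Type} [Field k] [Finite k] {ρbar : ResidualGaloisRep k} {p : ℕ} [Fact p.Prime]
  [Algebra (ZMod p) k] [CharP k p]

/-- the two determinant characters coincide -/
theorem detChar_eq {L : IntermediateField ℚ_[p] (PadicAlgCl p)}
    (hL : L ∈ flatFamily p (trivSubgroup ρbar p)) :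
    Fermat.Agent.S56.Flat.Count.Main.detChar (rhoL hL) = InertiaDict.detChar hL :=
  MonoidHom.ext fun _ => Units.ext rfl

section

variable
  (hA : ∀ (L : IntermediateField ℚ_[p] (PadicAlgCl p))
    (hL : L ∈ flatFamily p (trivSubgroup ρbar p)) [FiniteDimensional ℚ_[p] L] [IsGalois ℚ_[p] L],
    Fermat.Agent.S56.Flat.Count.Main.CharBoundA L
      (Fermat.Agent.S56.Flat.Count.Main.detChar (rhoL hL)))

include hA in
theorem hypChar1_of : HypChar1 ρbar p := by
  intro L hL φ
  have := hL.1
  have := hL.2.1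
  exact (hA L hL).1 φ

include hA in
theorem hypChar0_of : HypChar0 ρbar p := by
  intro L hL φ hφ
  have := hL.1
  have := hL.2.1
  refine (hA L hL).2 φ ?_
  rw [detChar_eq hL]
  exact hφ

variable
  (hB : Fermat.Agent.S56.Flat.Count.Main.IsIrredAtP ρbar p →
    ∀ (L : IntermediateField ℚ_[p] (PadicAlgCl p))
    (hL : L ∈ flatFamily p (trivSubgroup ρbar p)) [FiniteDimensional ℚ_[p] L] [IsGalois ℚ_[p] L],
    Fermat.Agent.S56.Flat.Count.Main.CharBoundB L
      (Fermat.Agent.S56.Flat.Count.Main.detChar (rhoL hL)))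

include hA hB in
theorem hypIrr_of (hp2 : p ≠ 2)
    (hsplit : ∀ σ : Qbar ≃ₐ[ℚ] Qbar, ∃ α β : k,
      LinearMap.charpoly (ρbar.ρ σ) = (Polynomial.X - Polynomial.C α) * (Polynomial.X - Polynomial.C β))
    (hdet : (GaloisRepAdic.ofResidualGaloisRep ρbar).DetIsCyclotomic p) : HypIrr ρbar p := by
  intro L hL hirr
  have := hL.1
  have := hL.2.1
  have hirr' := (Fermat.Agent.S56.Flat.Count.Main.isIrred_rhoL_iff hL).1 hirr
  exact Fermat.Agent.S56.Flat.Count.Main.b_ad0Rep_rhoL_le_one hL hp2 hsplit hdet (hA L hL)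
    (fun h => hB h L hL) (Or.inl hirr')

include hA in
/-- **`hR3`** from (C-A). -/
theorem hypR3_of_charBounds (hp2 : p ≠ 2) (hpk : (p : k) = 0)
    (hdet : (GaloisRepAdic.ofResidualGaloisRep ρbar).DetIsCyclotomic p) : HypR3 ρbar p :=
  hypR3 hp2 hpk hdet (hypChar1_of hA) (hypChar0_of hA)

include hA hB in
/-- **`hFLC`** from (C-A), (C-B). -/
theorem hypFLC_of_charBounds (hp2 : p ≠ 2) (hpk : (p : k) = 0)
    (hsplit : ∀ σ : Qbar ≃ₐ[ℚ] Qbar, ∃ α β : k,
      LinearMap.charpoly (ρbar.ρ σ) = (Polynomial.X - Polynomial.C α) * (Polynomial.X - Polynomial.C β))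
    (hdet : (GaloisRepAdic.ofResidualGaloisRep ρbar).DetIsCyclotomic p) : HypFLC ρbar p :=
  hypFLC hp2 hpk hdet (hypChar1_of hA) (hypChar0_of hA) (hypIrr_of hA hB hp2 hsplit hdet)

include hA hB in
/-- **`hfl_dim` of `Asm/Plug.result_of_local` for the flat condition of record `flSpan`**, from
`hLEC` and the two one-character bounds of FLC-Char. -/
theorem finrank_flSpan_add_le_local_of_charBounds (hpk : (p : k) = 0) (hp2 : p ≠ 2)
    (h2 : (2 : k) ≠ 0)
    (hsplit : ∀ σ : Qbar ≃ₐ[ℚ] Qbar, ∃ α β : k,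
      LinearMap.charpoly (ρbar.ρ σ) = (Polynomial.X - Polynomial.C α) * (Polynomial.X - Polynomial.C β))
    (hdetbar : (GaloisRepAdic.ofResidualGaloisRep ρbar).DetIsCyclotomic p)
    [hM : IsDiscrete (localLevel (primeLocalToGlobal (pPrime p)))
      (Rep.res (primeLocalToGlobal (pPrime p)) (ad0 ρbar p))]
    [IsDiscrete (localLevel (primeLocalToGlobal (pPrime p)))
      (Rep.res (primeLocalToGlobal (pPrime p)) (ad0' ρbar p))]
    (hLEC : ∀ (Y : Rep (ZMod p) (primeLocalGaloisGroup (pPrime p)))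
      [IsDiscrete (localLevel (primeLocalToGlobal (pPrime p))) Y] [FiniteDimensional (ZMod p) Y],
      finrank (ZMod p) (levelCohomology (localLevel (primeLocalToGlobal (pPrime p))) Y 1)
        = finrank (ZMod p) Y
          + finrank (ZMod p) (levelCohomology (localLevel (primeLocalToGlobal (pPrime p))) Y 0)
          + finrank (ZMod p) (levelCohomology (localLevel (primeLocalToGlobal (pPrime p))) Y 2)) :
    finrank (ZMod p)
        ↥(@flSpan k _ ρbar p _ _ hpk (localLevel (primeLocalToGlobal (pPrime p))) hM)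
        + finrank (ZMod p) (levelCohomology (localLevel (primeLocalToGlobal (pPrime p)))
            (Rep.res (primeLocalToGlobal (pPrime p)) (ad0' ρbar p)) 0)
        + 2 * finrank (ZMod p) k
      ≤ finrank (ZMod p) (levelCohomology (localLevel (primeLocalToGlobal (pPrime p)))
          (Rep.res (primeLocalToGlobal (pPrime p)) (ad0 ρbar p)) 1) :=
  finrank_flSpan_add_le_local'' hpk hp2 h2 hdetbar hLEC (hypChar1_of hA) (hypChar0_of hA)
    (hypIrr_of hA hB hp2 hsplit hdetbar)

end

end Fermat.Agent.S56.Flat.Bridge.Plug
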