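/-
S56 / block F (FLAT), leaf FL-EF part 2, (EF-2) (helper17): THE FINITE-LEVEL BRIDGE.

`(G, 𝒰)` a group with a level structure, `X` a discrete representation of `G` (over `k₀`),
`Γ` a group, `q : G →* Γ` surjective whose kernel contains a member of `𝒰`, `A` a representation
of `Γ` (over `k`, an a priori unrelated ring), `e : X ≃+ A` an additive bijection with
`e (g • x) = q g • e x`  (`Compat`).  Then inflation of cocycles along `q` is an isomorphism

  `inflEquiv : H¹(Γ, A) ≃+ H1ur 𝒰 (ker q) X`        (Mathlib `groupCohomology.H1` on the left,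
                                                     the classes of `PT/Unram` on the right),

and `H⁰(Γ, A) ≃+ H⁰(𝒰, X)` (`h0Equiv`).  Both are natural in compatible pairs of coefficient maps
(`inflEquiv_map`).  Numerically, for `k₀ = ZMod p` and `k` a field with `p ^ d` elements:

  `finrank (ZMod p) (H1ur 𝒰 (ker q) X) = d * finrank k (H1 A)`, the same for `H⁰`, and hence
  `finrank k (H1 A) ≤ finrank k (H0 A) + 1 →
     finrank (ZMod p) (H1ur 𝒰 (ker q) X) ≤ finrank (ZMod p) (levelCohomology 𝒰 X 0) + d`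
  (`finrank_H1ur_le`), with a variant for the image of `H¹(Γ, A₂) → H¹(Γ, A)`
  (`finrank_map_H1ur_le`).
-/
import Mathlib
import Fermat.Agent.S56.PT.Unram

set_option autoImplicit false
set_option linter.unusedSectionVars false

namespace Fermat.Agent.S56.Flat.Bridge.FiniteLevel

open CategoryTheory groupCohomology Fermat.Agent.S55.Level Fermat.Agent.S56.PT.Unram

universe u v

noncomputable section

variable {k₀ G : Type u} [CommRing k₀] [Group G] (𝒰 : LevelStructure G) (X : Rep.{u} k₀ G)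
variable {k Γ : Type v} [CommRing k] [Group Γ] (A : Rep.{v} k Γ)

/-- The compatibility package: `q` is surjective with open kernel and `e` is `q`-equivariant. -/
structure Compat (q : G →* Γ) (e : X ≃+ A) : Prop where
  surj : Function.Surjective q
  open_ker : ∃ W ∈ 𝒰.sets, W ≤ q.ker
  equivariant : ∀ (g : G) (x : X), e (X.ρ g x) = A.ρ (q g) (e x)

variable {𝒰 X A} {q : G →* Γ} {e : X ≃+ A}

theorem Compat.symm_equivariant (h : Compat 𝒰 X A q e) (g : G) (a : A) :
    e.symm (A.ρ (q g) a) = X.ρ g (e.symm a) := by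
  apply e.injective
  rw [h.equivariant, e.apply_symm_apply, e.apply_symm_apply]

/-- The kernel of `q` acts trivially on `X`. -/
theorem Compat.ker_trivial (h : Compat 𝒰 X A q e) {g : G} (hg : g ∈ q.ker) (x : X) :
    X.ρ g x = x := by
  apply e.injective
  rw [h.equivariant, (MonoidHom.mem_ker).1 hg, map_one]
  rfl

/-- `X` is automatically discrete. -/
theorem Compat.isDiscrete (h : Compat 𝒰 X A q e) : IsDiscrete 𝒰 X := by
  obtain ⟨W, hW, hle⟩ := h.open_ker
  exact ⟨fun x => ⟨W, hW, fun s hs => h.ker_trivial (hle hs) x⟩⟩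

/-! ### Inflation of cocycles -/

section Infl

variable [IsDiscrete 𝒰 X]

/-- The inflation of a 1-cocycle of `Γ` along `q`, transported by `e`. -/
def inflFun (q : G →* Γ) (e : X ≃+ A) (c : Γ → A) : G → X := fun g => e.symm (c (q g))

theorem inflFun_mem (h : Compat 𝒰 X A q e) (c : cocycles₁ A) :
    inflFun q e c.1 ∈ levelCocycles₁ 𝒰 X := by
  rw [Fermat.Agent.S55.Level.mem_levelCocycles₁_iff]
  refine ⟨?_, ?_⟩
  · rw [mem_cocycles₁_iff]
    intro g g'
    show e.symm (c.1 (q (g * g'))) = X.ρ g (e.symm (c.1 (q g'))) + e.symm (c.1 (q g))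
    rw [map_mul, (mem_cocycles₁_iff c.1).1 c.2 (q g) (q g'), map_add, h.symm_equivariant]
  · obtain ⟨W, hW, hle⟩ := h.open_ker
    refine ⟨W, hW, fun g s hs => ?_⟩
    show e.symm (c.1 (q (g * s))) = e.symm (c.1 (q g))
    rw [map_mul, (MonoidHom.mem_ker).1 (hle hs), mul_one]

theorem inflFun_vanish (c : cocycles₁ A) {τ : G} (hτ : τ ∈ q.ker) : inflFun q e c.1 τ = 0 := by
  show e.symm (c.1 (q τ)) = 0
  rw [(MonoidHom.mem_ker).1 hτ]
  have : c.1 1 = 0 := cocycles₁_map_one c
  rw [this, map_zero]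

/-- Inflation as an additive map into the level cocycles vanishing on `ker q`. -/
def inflCocycle (h : Compat 𝒰 X A q e) : cocycles₁ A →+ urCocycles 𝒰 q.ker X where
  toFun c := ⟨⟨inflFun q e c.1, inflFun_mem h c⟩, fun _ hτ => inflFun_vanish c hτ⟩
  map_zero' := by
    apply Subtype.ext; apply Subtype.ext
    funext g
    show e.symm 0 = 0
    exact map_zero _
  map_add' c c' := by
    apply Subtype.ext; apply Subtype.ext
    funext g
    show e.symm (c.1 (q g) + c'.1 (q g)) = e.symm (c.1 (q g)) + e.symm (c'.1 (q g))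
    exact map_add _ _ _

theorem inflCocycle_apply (h : Compat 𝒰 X A q e) (c : cocycles₁ A) (g : G) :
    ((inflCocycle h c).1).1 g = e.symm (c.1 (q g)) := rfl

theorem inflCocycle_injective (h : Compat 𝒰 X A q e) : Function.Injective (inflCocycle h) := by
  intro c c' hcc
  apply Subtype.ext
  funext γ
  obtain ⟨g, rfl⟩ := h.surj γ
  have h1 : ((inflCocycle h c).1).1 g = ((inflCocycle h c').1).1 g := by rw [hcc]
  rw [inflCocycle_apply, inflCocycle_apply] at h1
  exact e.symm.injective h1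

/-- A cocycle vanishing on `ker q` is constant on the fibres of `q`. -/
theorem eq_of_q_eq (z : urCocycles 𝒰 q.ker X) {g g' : G} (hgg : q g = q g') :
    z.1.1 g = z.1.1 g' := by
  have hmem : g'⁻¹ * g ∈ q.ker := by
    rw [MonoidHom.mem_ker, map_mul, map_inv, hgg, inv_mul_cancel]
  have h1 := (mem_cocycles₁_iff z.1.1).1 z.1.2.1 g' (g'⁻¹ * g)
  rw [mul_inv_cancel_left, z.2 _ hmem, map_zero, zero_add] at h1
  exact h1

theorem inflCocycle_surjective (h : Compat 𝒰 X A q e) : Function.Surjective (inflCocycle h) := by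
  intro z
  have hsec : ∀ γ : Γ, q (Function.surjInv h.surj γ) = γ := Function.surjInv_eq h.surj
  refine ⟨⟨fun γ => e (z.1.1 (Function.surjInv h.surj γ)), ?_⟩, ?_⟩
  · rw [mem_cocycles₁_iff]
    intro γ γ'
    show e (z.1.1 (Function.surjInv h.surj (γ * γ'))) =
      A.ρ γ (e (z.1.1 (Function.surjInv h.surj γ'))) + e (z.1.1 (Function.surjInv h.surj γ))
    have h1 : z.1.1 (Function.surjInv h.surj (γ * γ')) =
        z.1.1 (Function.surjInv h.surj γ * Function.surjInv h.surj γ') :=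
      eq_of_q_eq z (by rw [map_mul, hsec, hsec, hsec])
    rw [h1, (mem_cocycles₁_iff z.1.1).1 z.1.2.1, map_add, h.equivariant, hsec]
  · apply Subtype.ext; apply Subtype.ext
    funext g
    show e.symm (e (z.1.1 (Function.surjInv h.surj (q g)))) = z.1.1 g
    rw [e.symm_apply_apply]
    exact eq_of_q_eq z (hsec _)

/-- Inflation is a bijection `Z¹(Γ, A) ≃+ {level cocycles of X vanishing on ker q}`. -/
def inflCocycleEquiv (h : Compat 𝒰 X A q e) : cocycles₁ A ≃+ urCocycles 𝒰 q.ker X :=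
  AddEquiv.ofBijective (inflCocycle h) ⟨inflCocycle_injective h, inflCocycle_surjective h⟩

/-- Inflation matches coboundaries with coboundaries. -/
theorem inflCocycle_mem_coboundaries_iff (h : Compat 𝒰 X A q e) (c : cocycles₁ A) :
    ((inflCocycle h c).1).1 ∈ coboundaries₁ X ↔ c.1 ∈ coboundaries₁ A := by
  constructor
  · rintro ⟨x, hx⟩
    refine ⟨e x, ?_⟩
    funext γ
    obtain ⟨g, rfl⟩ := h.surj γ
    have h1 := congrFun hx g
    rw [inflCocycle_apply, d₀₁_hom_apply] at h1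
    rw [d₀₁_hom_apply, ← h.equivariant, ← map_sub, h1, e.apply_symm_apply]
  · rintro ⟨a, ha⟩
    refine ⟨e.symm a, ?_⟩
    funext g
    rw [inflCocycle_apply, ← ha, d₀₁_hom_apply, d₀₁_hom_apply, map_sub, h.symm_equivariant]

end Infl

/-! ### The isomorphism `H¹(Γ, A) ≃+ H1ur 𝒰 (ker q) X` -/

section H1

variable [IsDiscrete 𝒰 X]

/-- The projection `Z¹(Γ, A) → H¹(Γ, A)` as an additive map. -/
def projA (A : Rep.{v} k Γ) : cocycles₁ A →+ H1 A := (H1π A).hom.toAddMonoidHom

theorem projA_apply (c : cocycles₁ A) : projA A c = (H1π A).hom c := rfl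

theorem projA_surjective : Function.Surjective (projA A) := by
  intro x
  induction x using H1_induction_on with
  | h c => exact ⟨c, rfl⟩

theorem mem_ker_projA_iff (c : cocycles₁ A) : c ∈ (projA A).ker ↔ c.1 ∈ coboundaries₁ A := by
  rw [AddMonoidHom.mem_ker, projA_apply]
  exact H1π_eq_zero_iff c

/-- The projection from the level cocycles vanishing on `I` to `H1ur`. -/
def projUr (𝒰 : LevelStructure G) (I : Subgroup G) (X : Rep.{u} k₀ G) [IsDiscrete 𝒰 X] :
    urCocycles 𝒰 I X →+ H1ur 𝒰 I X where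
  toFun z := ⟨levelH1π 𝒰 X z.1, ⟨z.1, z.2, rfl⟩⟩
  map_zero' := by
    apply Subtype.ext
    show levelH1π 𝒰 X (0 : levelCocycles₁ 𝒰 X) = 0
    exact map_zero _
  map_add' z z' := by
    apply Subtype.ext
    show levelH1π 𝒰 X (z.1 + z'.1) = levelH1π 𝒰 X z.1 + levelH1π 𝒰 X z'.1
    exact map_add _ _ _

theorem projUr_apply (I : Subgroup G) (z : urCocycles 𝒰 I X) :
    (projUr 𝒰 I X z : levelCohomology 𝒰 X 1) = levelH1π 𝒰 X z.1 := rfl

theorem projUr_surjective (I : Subgroup G) : Function.Surjective (projUr 𝒰 I X) := by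
  rintro ⟨x, z, hz, rfl⟩
  exact ⟨⟨z, hz⟩, rfl⟩

theorem mem_ker_projUr_iff (I : Subgroup G) (z : urCocycles 𝒰 I X) :
    z ∈ (projUr 𝒰 I X).ker ↔ z.1.1 ∈ coboundaries₁ X := by
  rw [AddMonoidHom.mem_ker, ← levelH1π_eq_zero_iff, Subtype.ext_iff, projUr_apply]
  rfl

theorem map_ker_projA (h : Compat 𝒰 X A q e) :
    (projA A).ker.map (inflCocycleEquiv h : cocycles₁ A →+ urCocycles 𝒰 q.ker X) =
      (projUr 𝒰 q.ker X).ker := by
  ext z
  constructor
  · rintro ⟨c, hc, rfl⟩
    rw [mem_ker_projUr_iff]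
    exact (inflCocycle_mem_coboundaries_iff h c).2 ((mem_ker_projA_iff c).1 hc)
  · intro hz
    obtain ⟨c, rfl⟩ := inflCocycle_surjective h z
    refine ⟨c, ?_, rfl⟩
    rw [SetLike.mem_coe, mem_ker_projA_iff]
    exact (inflCocycle_mem_coboundaries_iff h c).1 ((mem_ker_projUr_iff _ _).1 hz)

/-- **Inflation**: `H¹(Γ, A) ≃+ H1ur 𝒰 (ker q) X`. -/
def inflEquiv (h : Compat 𝒰 X A q e) : H1 A ≃+ H1ur 𝒰 q.ker X :=
  (QuotientAddGroup.quotientKerEquivOfSurjective (projA A) projA_surjective).symm.trans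
    ((QuotientAddGroup.congr (projA A).ker (projUr 𝒰 q.ker X).ker (inflCocycleEquiv h)
      (map_ker_projA h)).trans
      (QuotientAddGroup.quotientKerEquivOfSurjective (projUr 𝒰 q.ker X) (projUr_surjective _)))

/-- The defining property of `inflEquiv` on representatives. -/
theorem inflEquiv_H1π (h : Compat 𝒰 X A q e) (c : cocycles₁ A) :
    (inflEquiv h ((H1π A).hom c) : levelCohomology 𝒰 X 1) = levelH1π 𝒰 X (inflCocycle h c).1 := by
  have h1 : (QuotientAddGroup.quotientKerEquivOfSurjective (projA A) projA_surjective).symm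
      ((H1π A).hom c) = QuotientAddGroup.mk c := by
    rw [AddEquiv.symm_apply_eq]
    rfl
  show ((QuotientAddGroup.quotientKerEquivOfSurjective (projUr 𝒰 q.ker X) (projUr_surjective _))
    ((QuotientAddGroup.congr (projA A).ker (projUr 𝒰 q.ker X).ker (inflCocycleEquiv h)
      (map_ker_projA h))
      ((QuotientAddGroup.quotientKerEquivOfSurjective (projA A) projA_surjective).symm
        ((H1π A).hom c))) : levelCohomology 𝒰 X 1) = _
  rw [h1]
  rfl

end H1

/-! ### Naturality in the coefficients -/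

section Natural

open Fermat.Agent.S55.LevelDuality

variable [IsDiscrete 𝒰 X]
variable {X₂ : Rep.{u} k₀ G} [IsDiscrete 𝒰 X₂] {A₂ : Rep.{v} k Γ} {e₂ : X₂ ≃+ A₂}

/-- `inflEquiv` is natural in compatible pairs of coefficient maps. -/
theorem inflEquiv_map (h : Compat 𝒰 X A q e) (h₂ : Compat 𝒰 X₂ A₂ q e₂) (f : X₂ ⟶ X) (f' : A₂ ⟶ A)
    (hff : ∀ x, e (f.hom x) = f'.hom (e₂ x)) (x : H1 A₂) :
    (inflEquiv h ((groupCohomology.map (MonoidHom.id Γ) f' 1).hom x) : levelCohomology 𝒰 X 1) =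
      lmap 𝒰 f 1 (inflEquiv h₂ x : levelCohomology 𝒰 X₂ 1) := by
  induction x using H1_induction_on with
  | h c =>
    have h1 : (groupCohomology.map (MonoidHom.id Γ) f' 1).hom ((H1π A₂).hom c) =
        (H1π A).hom ((mapCocycles₁ (MonoidHom.id Γ) f').hom c) :=
      H1π_comp_map_apply (MonoidHom.id Γ) f' c
    rw [h1, inflEquiv_H1π, inflEquiv_H1π, lmap_levelH1π]
    congr 1
    apply Subtype.ext
    funext g
    show e.symm (f'.hom (c.1 (q g))) = f.hom (e₂.symm (c.1 (q g)))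
    apply e.injective
    rw [e.apply_symm_apply, hff, e₂.apply_symm_apply]

/-- The image of `H¹(Γ, A₂) → H¹(Γ, A)` corresponds to the image of `H1ur X₂` in `H¹(𝒰, X)`. -/
def rangeEquiv (h : Compat 𝒰 X A q e) (h₂ : Compat 𝒰 X₂ A₂ q e₂) (f : X₂ ⟶ X) (f' : A₂ ⟶ A)
    (hff : ∀ x, e (f.hom x) = f'.hom (e₂ x)) :
    LinearMap.range (groupCohomology.map (MonoidHom.id Γ) f' 1).hom ≃
      (H1ur 𝒰 q.ker X₂).map (lmap 𝒰 f 1) where
  toFun y := ⟨(inflEquiv h y.1 : levelCohomology 𝒰 X 1), by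
    obtain ⟨x, hx⟩ := y.2
    rw [← hx, inflEquiv_map h h₂ f f' hff]
    exact ⟨_, (inflEquiv h₂ x).2, rfl⟩⟩
  invFun w := ⟨(inflEquiv h).symm ⟨w.1, by
      obtain ⟨x₂, hx₂, hw⟩ := w.2
      rw [← hw]
      exact lmap_mem_H1ur f hx₂⟩, by
    obtain ⟨x₂, hx₂, hw⟩ := w.2
    refine ⟨(inflEquiv h₂).symm ⟨x₂, hx₂⟩, ?_⟩
    rw [AddEquiv.eq_symm_apply]
    apply Subtype.ext
    rw [inflEquiv_map h h₂ f f' hff, AddEquiv.apply_symm_apply]
    exact hw⟩
  left_inv y := by
    apply Subtype.ext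
    show (inflEquiv h).symm ⟨(inflEquiv h y.1 : levelCohomology 𝒰 X 1), _⟩ = y.1
    rw [AddEquiv.symm_apply_eq]
  right_inv w := by
    apply Subtype.ext
    show ((inflEquiv h) ((inflEquiv h).symm ⟨w.1, _⟩) : levelCohomology 𝒰 X 1) = w.1
    rw [AddEquiv.apply_symm_apply]

end Natural

/-! ### `H⁰` -/

section H0

open Fermat.Agent.S55.CochainTools

variable [IsDiscrete 𝒰 X]

/-- `H⁰` of the level complex is the module of invariants (the equivalence behind
`Unram.finrank_levelCohomology_zero`). -/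
def h0LevelEquiv (𝒰 : LevelStructure G) (X : Rep.{u} k₀ G) [IsDiscrete 𝒰 X] :
    X.ρ.invariants ≃ₗ[k₀] levelCohomology 𝒰 X 0 :=
  (LinearEquiv.ofBijective _ (toZ₀_bijective 𝒰 X)).trans
    (LinearEquiv.ofBijective (cls (levelComplex 𝒰 X) 0) (by
      refine ⟨?_, cls_surjective _ 0⟩
      rw [← LinearMap.ker_eq_bot, LinearMap.ker_eq_bot']
      intro z hz
      rw [cls_eq_zero_iff] at hz
      exact eq_zero_of_mem_B_zero _ z hz))

/-- The invariants of `X` and of `A` correspond under `e`. -/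
def invEquiv (h : Compat 𝒰 X A q e) : X.ρ.invariants ≃+ A.ρ.invariants where
  toFun x := ⟨e x.1, fun γ => by
    obtain ⟨g, rfl⟩ := h.surj γ
    rw [← h.equivariant, x.2 g]⟩
  invFun a := ⟨e.symm a.1, fun g => by
    rw [← h.symm_equivariant, a.2 (q g)]⟩
  left_inv x := Subtype.ext (e.symm_apply_apply _)
  right_inv a := Subtype.ext (e.apply_symm_apply _)
  map_add' x y := Subtype.ext (map_add e _ _)

/-- `H⁰(Γ, A) ≃+ H⁰(𝒰, X)`. -/
def h0Equiv (h : Compat 𝒰 X A q e) : H0 A ≃+ levelCohomology 𝒰 X 0 :=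
  ((H0Iso A).toLinearEquiv.toAddEquiv.trans (invEquiv h).symm).trans
    (h0LevelEquiv 𝒰 X).toAddEquiv

end H0

/-! ### Counting -/

section Count

open Module

variable [IsDiscrete 𝒰 X]

theorem card_H1ur (h : Compat 𝒰 X A q e) :
    Nat.card (H1ur 𝒰 q.ker X) = Nat.card (H1 A) :=
  Nat.card_congr (inflEquiv h).symm.toEquiv

theorem card_H0 (h : Compat 𝒰 X A q e) :
    Nat.card (levelCohomology 𝒰 X 0) = Nat.card (H0 A) :=
  Nat.card_congr (h0Equiv h).symm.toEquiv

instance finite_cocycles₁ [Finite Γ] [Finite A] : Finite (cocycles₁ A) :=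
  Finite.of_injective (fun c : cocycles₁ A => c.1) Subtype.val_injective

instance finite_H1 [Finite Γ] [Finite A] : Finite (H1 A) :=
  Finite.of_surjective (projA A) projA_surjective

instance finite_H0 [Finite A] : Finite (H0 A) :=
  Finite.of_injective (H0Iso A).toLinearEquiv (LinearEquiv.injective _)

/-- Transfer of dimensions between a `ZMod p`-space and a `k`-space of the same cardinality,
`#k = p ^ d`. -/
theorem finrank_eq_mul {p d : ℕ} [Fact p.Prime] {k : Type*} [Field k] [Finite k]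
    (hk : Nat.card k = p ^ d) {V W : Type*} [AddCommGroup V] [Module (ZMod p) V] [Finite V]
    [AddCommGroup W] [Module k W] [Finite W] (hVW : Nat.card V = Nat.card W) :
    finrank (ZMod p) V = d * finrank k W := by
  have h1 : Nat.card V = p ^ finrank (ZMod p) V := by
    rw [Module.natCard_eq_pow_finrank (K := ZMod p) (V := V), Nat.card_zmod]
  have h2 : Nat.card W = p ^ (d * finrank k W) := by
    rw [Module.natCard_eq_pow_finrank (K := k) (V := W), hk, pow_mul]
  rw [h1, h2] at hVW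
  exact Nat.pow_right_injective (Fact.out : p.Prime).two_le hVW

end Count

/-! ### The numerical transfer for `k₀ = ZMod p`, `#k = p ^ d` -/

section Numeric

open Module Fermat.Agent.S55.LevelDuality

variable {p d : ℕ} [Fact p.Prime] {G : Type} [Group G] {𝒰 : LevelStructure G}
  {X : Rep.{0} (ZMod p) G} [IsDiscrete 𝒰 X]
  {k Γ : Type v} [Field k] [Finite k] [Group Γ] [Finite Γ] {A : Rep.{v} k Γ} [Finite A]
  {q : G →* Γ} {e : X ≃+ A}

theorem finrank_H1ur_eq (h : Compat 𝒰 X A q e) (hk : Nat.card k = p ^ d) :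
    finrank (ZMod p) (H1ur 𝒰 q.ker X) = d * finrank k (H1 A) := by
  have : Finite (H1ur 𝒰 q.ker X) := Finite.of_equiv _ (inflEquiv h).toEquiv
  exact finrank_eq_mul hk (card_H1ur h)

theorem finrank_H0_eq (h : Compat 𝒰 X A q e) (hk : Nat.card k = p ^ d) :
    finrank (ZMod p) (levelCohomology 𝒰 X 0) = d * finrank k (H0 A) := by
  have : Finite (levelCohomology 𝒰 X 0) := Finite.of_equiv _ (h0Equiv h).toEquiv
  exact finrank_eq_mul hk (card_H0 h)

/-- **The bound in the shape consumed by `Asm/Count`**: a bound `h¹(Γ, A) ≤ h⁰(Γ, A) + m` over `k`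
gives `dim_{𝔽_p} H1ur ≤ dim_{𝔽_p} H⁰(𝒰, X) + d m`. -/
theorem finrank_H1ur_le (h : Compat 𝒰 X A q e) (hk : Nat.card k = p ^ d) (m : ℕ)
    (hb : finrank k (H1 A) ≤ finrank k (H0 A) + m) :
    finrank (ZMod p) (H1ur 𝒰 q.ker X) ≤ finrank (ZMod p) (levelCohomology 𝒰 X 0) + d * m := by
  rw [finrank_H1ur_eq h hk, finrank_H0_eq h hk, ← Nat.mul_add]
  exact Nat.mul_le_mul_left d hb

variable {X₂ : Rep.{0} (ZMod p) G} [IsDiscrete 𝒰 X₂] {A₂ : Rep.{v} k Γ} [Finite A₂]
  {e₂ : X₂ ≃+ A₂}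

theorem finrank_map_H1ur_eq (h : Compat 𝒰 X A q e) (h₂ : Compat 𝒰 X₂ A₂ q e₂) (f : X₂ ⟶ X)
    (f' : A₂ ⟶ A) (hff : ∀ x, e (f.hom x) = f'.hom (e₂ x)) (hk : Nat.card k = p ^ d) :
    finrank (ZMod p) ((H1ur 𝒰 q.ker X₂).map (lmap 𝒰 f 1)) =
      d * finrank k (LinearMap.range (groupCohomology.map (MonoidHom.id Γ) f' 1).hom) := by
  have : Finite ((H1ur 𝒰 q.ker X₂).map (lmap 𝒰 f 1)) :=
    Finite.of_equiv _ (rangeEquiv h h₂ f f' hff)
  exact finrank_eq_mul hk (Nat.card_congr (rangeEquiv h h₂ f f' hff).symm)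

/-- The variant for the image of `H¹(Γ, A₂) → H¹(Γ, A)` (row 53, (R3)). -/
theorem finrank_map_H1ur_le (h : Compat 𝒰 X A q e) (h₂ : Compat 𝒰 X₂ A₂ q e₂) (f : X₂ ⟶ X)
    (f' : A₂ ⟶ A) (hff : ∀ x, e (f.hom x) = f'.hom (e₂ x)) (hk : Nat.card k = p ^ d) (m : ℕ)
    (hb : finrank k (LinearMap.range (groupCohomology.map (MonoidHom.id Γ) f' 1).hom) ≤
      finrank k (H0 A) + m) :
    finrank (ZMod p) ((H1ur 𝒰 q.ker X₂).map (lmap 𝒰 f 1)) ≤
      finrank (ZMod p) (levelCohomology 𝒰 X 0) + d * m := by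
  rw [finrank_map_H1ur_eq h h₂ f f' hff hk, finrank_H0_eq h hk, ← Nat.mul_add]
  exact Nat.mul_le_mul_left d hb

end Numeric

end

end Fermat.Agent.S56.Flat.Bridge.FiniteLevel
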