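/-
S56 / block F (FLAT), leaf FL-EF part 2 (helper17): THE INERTIA DICTIONARY between the frozen
inertia subgroup at `primeLocalPlace (pPrime p)` and helper20's `LocalGalois.inertia L ≤ Gal(L/ℚ_p)`
(easy direction), the determinant character of `rhoL`, and the cyclicity argument for the tame
inertia (the case `p = 3`, both diagonal characters ramified).

* `eq_of_sq_eq_one` (abstract): `H` finite with `θ : H →* κˣ` (`κ` a domain); two characters
  `χ, χ' : H →* kˣ` trivial on `ker θ`, of square one and non-trivial, coincide;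
* `resL_mem_inertia` : `τ ∈ normInertia p ⇒ resL L τ ∈ LocalGalois.inertia L`;
  `exists_resL_mem_inertia` : every `σ` of the frozen inertia group at `primeLocalPlace (pPrime p)`
  is `r τ` with `resL L τ ∈ LocalGalois.inertia L`;
* `detChar hL : Gal(L/ℚ_p) →* kˣ` (`= det ∘ rhoL`), `detChar_spec`, `exists_detChar_ne_one`
  (`ω̄|Γ₀ ≠ 1`);
* for a basis `b` with the line `k·b₀` stable (`hT`): `isUT_of_mat`, `mat_of_isUT`,
  `isSOBasis_of_chiD` (`χ_D|Γ₀ = 1 ⇒ IsSOBasis`), `hasUnramSub_of_chiA` (`χ_A|Γ₀ = 1 ⇒ HasUnramSub`);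
* `chi_eq_on_inertia` : two characters of `Gal(L/ℚ_p)` of square one on `Γ₀`, non-trivial on `Γ₀`,
  coincide on `Γ₀` (`p` odd).
-/
import Mathlib
import Fermat.Agent.S56.Flat.Bridge.Final
import Fermat.Agent.S56.Flat.Bridge.Transport
import Fermat.Agent.S56.Flat.Count.LocalGalois
import Fermat.Agent.S56.Flat.Count.ReducibleAd0
import Fermat.Agent.S56.PT.UnramInstNorm

set_option autoImplicit false
set_option linter.unusedSectionVars false

namespace Fermat.Agent.S56.Flat.Bridge.InertiaDict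

open Module IsLocalRing ExtCitation Fermat.Agent.S55.LocalInt Fermat.Agent.S56.Ad
  Fermat.Agent.S56.Loc.BorelCore Fermat.Agent.S56.Loc.StrictOrdAt Fermat.Agent.S56.Places.Dict
  Fermat.Agent.S56.PT.UnramInstNorm
  Fermat.Agent.S56.Flat.Count.LocalGalois Fermat.Agent.S56.Flat.Count.IrredStructure
  Fermat.Agent.S56.Flat.Count.ReducibleAd0 Fermat.Agent.S56.Flat.Count.Inertia
  Fermat.Agent.S56.Flat.Bridge.Compositum Fermat.Agent.S56.Flat.Bridge.Member
  Fermat.Agent.S56.Flat.Bridge.Instance Fermat.Agent.S56.Flat.Bridge.Transport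
  Fermat.Agent.S56.Flat.Bridge.Final

local notation "Qbar" => AlgebraicClosure ℚ

/-! ### The abstract cyclicity argument -/

section Abstract

variable {H κ k : Type*} [Group H] [Finite H] [CommRing κ] [IsDomain κ] [Field k]

/-- Two characters of square one of a finite group `H`, trivial on the kernel of a homomorphism
`θ : H →* κˣ` to the units of a domain, both non-trivial, coincide (`H / ker θ` is cyclic). -/
theorem eq_of_sq_eq_one (θ : H →* κˣ) (χ χ' : H →* kˣ)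
    (hker : ∀ h, θ h = 1 → χ h = 1) (hker' : ∀ h, θ h = 1 → χ' h = 1)
    (hsq : ∀ h, χ h ^ 2 = 1) (hsq' : ∀ h, χ' h ^ 2 = 1)
    (hne : ∃ h, χ h ≠ 1) (hne' : ∃ h, χ' h ≠ 1) : ∀ h, χ h = χ' h := by
  have : Finite θ.range := Finite.of_surjective θ.rangeRestrict θ.rangeRestrict_surjective
  have hcyc : IsCyclic θ.range := isCyclic_subgroup_units θ.range
  obtain ⟨⟨u, h₀, rfl⟩, hu⟩ := hcyc.exists_generator
  -- every element is a power of `h₀` modulo `ker θ`
  have hpow : ∀ h : H, ∃ j : ℤ, θ (h * (h₀ ^ j)⁻¹) = 1 := by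
    intro h
    obtain ⟨j, hj⟩ := Subgroup.mem_zpowers_iff.1 (hu ⟨θ h, h, rfl⟩)
    refine ⟨j, ?_⟩
    have hj' : θ h₀ ^ j = θ h := by
      have := congrArg Subtype.val hj
      simpa using this
    rw [map_mul, map_inv, map_zpow, hj', mul_inv_cancel]
  have hval : ∀ (ψ : H →* kˣ), (∀ h, θ h = 1 → ψ h = 1) → ∀ h : H, ∃ j : ℤ, ψ h = ψ h₀ ^ j := by
    intro ψ hψ h
    obtain ⟨j, hj⟩ := hpow h
    refine ⟨j, ?_⟩
    have h1 := hψ _ hj
    rw [map_mul, map_inv, map_zpow, mul_inv_eq_one] at h1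
    exact h1
  -- the value at `h₀` is `-1`
  have hm1 : ∀ (ψ : H →* kˣ), (∀ h, θ h = 1 → ψ h = 1) → (∀ h, ψ h ^ 2 = 1) → (∃ h, ψ h ≠ 1) →
      ((ψ h₀ : kˣ) : k) = -1 := by
    intro ψ hψ hψ2 ⟨h, hh⟩
    have h0 : ψ h₀ ≠ 1 := by
      intro h1
      obtain ⟨j, hj⟩ := hval ψ hψ h
      rw [h1, one_zpow] at hj
      exact hh hj
    have h2 : ((ψ h₀ : kˣ) : k) ^ 2 = 1 := by
      rw [← Units.val_pow_eq_pow_val, hψ2, Units.val_one]
    have h3 : (((ψ h₀ : kˣ) : k) - 1) * (((ψ h₀ : kˣ) : k) + 1) = 0 := by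
      have h5 : (((ψ h₀ : kˣ) : k) - 1) * (((ψ h₀ : kˣ) : k) + 1)
          = ((ψ h₀ : kˣ) : k) ^ 2 - 1 := by ring
      rw [h5, h2, sub_self]
    rcases mul_eq_zero.1 h3 with h4 | h4
    · exact absurd (Units.ext (by rw [Units.val_one]; exact sub_eq_zero.1 h4)) h0
    · exact eq_neg_of_add_eq_zero_left h4
  have e : χ h₀ = χ' h₀ := Units.ext ((hm1 χ hker hsq hne).trans (hm1 χ' hker' hsq' hne').symm)
  intro h
  obtain ⟨j, hj⟩ := hpow h
  have h1 := hker _ hj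
  have h2 := hker' _ hj
  rw [map_mul, map_inv, map_zpow, mul_inv_eq_one] at h1 h2
  rw [h1, h2, e]

end Abstract

variable {k : Type} [Field k] {ρbar : ResidualGaloisRep k} {p : ℕ} [Fact p.Prime]
  [Algebra (ZMod p) k] {L : IntermediateField ℚ_[p] (PadicAlgCl p)}

/-! ### The inertia dictionary -/

section Dict

attribute [local instance] galAct

variable [FiniteDimensional ℚ_[p] L] [Normal ℚ_[p] L]

/-- an element of the inertia group in norm form restricts to an element of `inertia L` -/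
theorem resL_mem_inertia {τ : PadicAlgCl p ≃ₐ[ℚ_[p]] PadicAlgCl p} (hτ : τ ∈ normInertia p) :
    resL L τ ∈ inertia L := by
  rw [mem_inertia_iff]
  intro x
  rw [mem_maximalIdeal_iff_norm_lt_one]
  have h1 : ((((resL L τ) • x - x : integralClosure ℤ_[p] L) : L) : PadicAlgCl p)
      = τ ((x : L) : PadicAlgCl p) - ((x : L) : PadicAlgCl p) := by
    have h2 : (((resL L τ) • x - x : integralClosure ℤ_[p] L) : L)
        = resL L τ (x : L) - (x : L) := by
      rw [← coe_smul L (resL L τ) x]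
      rfl
    rw [h2]
    push_cast
    rw [resL_apply]
  rw [h1]
  exact hτ _ (norm_le_one_of_mem L x)

/-- every element of the frozen inertia group at `primeLocalPlace (pPrime p)` comes from an element
of the local Galois group whose restriction to `L` is in `inertia L` -/
theorem exists_resL_mem_inertia {σ : Qbar ≃ₐ[ℚ] Qbar}
    (hσ : σ ∈ (primeLocalPlace (pPrime p)).inertiaSubgroupIn ℚ) :
    ∃ τ : PadicAlgCl p ≃ₐ[ℚ_[p]] PadicAlgCl p,
      localGaloisToGlobal p τ = σ ∧ resL L τ ∈ inertia L := by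
  obtain ⟨τ, hτ⟩ := exists_primeLocalToGlobal_eq (q := pPrime p)
    (inertia_le_decomposition _ hσ)
  refine ⟨τ, hτ, resL_mem_inertia ?_⟩
  have h1 : τ ∈ localInertia (pPrime p) := by
    rw [mem_localInertia_iff, hτ]
    exact hσ
  rw [localInertia_eq_normInertia] at h1
  exact h1

end Dict

/-! ### The determinant character of `rhoL` -/

section Det

variable (hL : L ∈ flatFamily p (trivSubgroup ρbar p))

/-- `ω = det ∘ rhoL : Gal(L/ℚ_p) →* kˣ` -/
noncomputable def detChar : (L ≃ₐ[ℚ_[p]] L) →* kˣ :=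
  ((LinearMap.det : Module.End k ρbar.V →* k).comp (rhoL hL)).toHomUnits

theorem coe_detChar (g : L ≃ₐ[ℚ_[p]] L) :
    ((detChar hL g : kˣ) : k) = LinearMap.det (rhoL hL g) := rfl

/-- the `ω̄`-free seam: `ω g = a` in `k` and `g ζ = ζ ^ a` on the `p`-th roots of unity of `L` -/
theorem detChar_spec (hdet : (GaloisRepAdic.ofResidualGaloisRep ρbar).DetIsCyclotomic p)
    (g : L ≃ₐ[ℚ_[p]] L) :
    ∃ a : ℕ, ((detChar hL g : kˣ) : k) = (a : k) ∧ ∀ ζ : L, ζ ^ p = 1 → g ζ = ζ ^ a :=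
  det_rhoL_spec hL hdet g

/-- in characteristic `p`, `(a : k) = 1` forces `ζ ^ a = ζ` for a `p`-th root of unity -/
theorem pow_eq_self_of_natCast_eq_one {M : Type*} [Monoid M] (hpk : (p : k) = 0) {a : ℕ}
    (ha : (a : k) = 1) {ζ : M} (hζ : ζ ^ p = 1) : ζ ^ a = ζ := by
  have hp : p.Prime := Fact.out
  have : CharP k p := (CharP.charP_iff_prime_eq_zero hp).mpr hpk
  have ha' : ((a : ℕ) : k) = ((1 : ℕ) : k) := by rw [ha, Nat.cast_one]
  have hmod : a ≡ 1 [MOD p] := (CharP.natCast_eq_natCast k p).1 ha'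
  have h1 : 1 ≤ a := by
    rcases Nat.eq_zero_or_pos a with h0 | h0
    · rw [h0] at hmod
      have := (Nat.modEq_zero_iff_dvd.1 hmod.symm)
      exact absurd (Nat.dvd_one.1 this) hp.one_lt.ne'
    · exact h0
  obtain ⟨t, ht⟩ := (Nat.modEq_iff_dvd' h1).1 hmod.symm
  have ha2 : a = 1 + p * t := by omega
  rw [ha2, pow_add, pow_one, pow_mul, hζ, one_pow, mul_one]

/-- **`ω|Γ₀ ≠ 1`** (`p` odd) -/
theorem exists_detChar_ne_one (hp2 : p ≠ 2) (hpk : (p : k) = 0)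
    (hdet : (GaloisRepAdic.ofResidualGaloisRep ρbar).DetIsCyclotomic p) :
    ∃ γ ∈ inertia L, detChar hL γ ≠ 1 := by
  have := hL.1
  have := hL.2.1
  obtain ⟨ζ, hζ⟩ := exists_primitiveRoot hL
  obtain ⟨σ, hσ, hne⟩ := exists_mem_inertia_apply_ne L hp2 hζ
  refine ⟨σ, hσ, fun h1 => hne ?_⟩
  obtain ⟨a, ha, hspec⟩ := detChar_spec hL hdet σ
  rw [h1, Units.val_one] at ha
  rw [hspec ζ hζ.pow_eq_one]
  exact pow_eq_self_of_natCast_eq_one hpk ha.symm hζ.pow_eq_one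

end Det

/-! ### Stable lines -/

section Flag

variable (hL : L ∈ flatFamily p (trivSubgroup ρbar p)) {b : Basis (Fin 2) k ρbar.V}

theorem isUT_iff_mat (g : Module.End k ρbar.V) :
    IsUT b g ↔ LinearMap.toMatrix b b g 1 0 = 0 := by
  rw [IsUT, ent_apply, LinearMap.toMatrix_apply]

/-- upper triangularity of `rhoL` from that of `ρ̄|G_p` -/
theorem mat_of_isUT
    (hT : ∀ τ : PadicAlgCl p ≃ₐ[ℚ_[p]] PadicAlgCl p, IsUT b (ρbar.ρ (localGaloisToGlobal p τ))) :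
    ∀ g : L ≃ₐ[ℚ_[p]] L, mat (rhoL hL) b g 1 0 = 0 := by
  intro g
  obtain ⟨τ, rfl⟩ := exists_resL_eq hL g
  have h := (isUT_iff_mat (b := b) _).1 (hT τ)
  rw [← rhoL_resL hL τ] at h
  exact h

/-- upper triangularity of `ρ̄|G_p` from that of `rhoL` -/
theorem isUT_of_mat (hT : ∀ g : L ≃ₐ[ℚ_[p]] L, mat (rhoL hL) b g 1 0 = 0)
    (τ : PadicAlgCl p ≃ₐ[ℚ_[p]] PadicAlgCl p) : IsUT b (ρbar.ρ (localGaloisToGlobal p τ)) := by
  have := hL.2.1.to_normal
  rw [isUT_iff_mat, ← rhoL_resL hL τ]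
  exact hT _

variable (hT : ∀ g : L ≃ₐ[ℚ_[p]] L, mat (rhoL hL) b g 1 0 = 0)

/-- **`χ_D|Γ₀ = 1 ⇒` the line `k·b₀` has unramified quotient** -/
theorem isSOBasis_of_chiD (h : ∀ γ ∈ inertia L, chiD hT γ = 1) : IsSOBasis ρbar (pPrime p) b := by
  have := hL.2.1.to_normal
  have := hL.1
  refine ⟨fun τ => isUT_of_mat hL hT τ, fun σ hσ v => ?_⟩
  obtain ⟨τ, rfl, hτ⟩ := exists_resL_mem_inertia (L := L) hσ
  rw [← rhoL_resL hL τ]
  set g := resL L τ with hg
  have hD : ((chiD hT g : kˣ) : k) = 1 := by rw [h g hτ, Units.val_one]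
  -- decompose `v` in the basis
  have hv : v = b.repr v 0 • b 0 + b.repr v 1 • b 1 := by
    conv_lhs => rw [← b.sum_repr v]
    rw [Fin.sum_univ_two]
  have h1 := apply_basis_zero_of_ut hT g
  have h2 := apply_basis_one_of_ut hT g
  rw [hD, one_smul] at h2
  have h3 : rhoL hL g v - v
      = (b.repr v 0 * ((chiA hT g : kˣ) : k) + b.repr v 1 * mat (rhoL hL) b g 0 1 - b.repr v 0)
        • b 0 := by
    conv_lhs => rw [hv]
    rw [map_add, map_smul, map_smul, h1, h2]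
    module
  rw [h3]
  exact Submodule.smul_mem _ _ (Submodule.mem_span_singleton_self _)

/-- **`χ_A|Γ₀ = 1 ⇒` the stable line `k·b₀` is unramified** -/
theorem hasUnramSub_of_chiA (h : ∀ γ ∈ inertia L, chiA hT γ = 1) : HasUnramSub ρbar p := by
  have := hL.2.1.to_normal
  have := hL.1
  refine ⟨b 0, b.ne_zero 0, fun τ => ⟨((chiA hT (resL L τ) : kˣ) : k), ?_⟩, fun σ hσ => ?_⟩
  · rw [← rhoL_resL hL τ]
    exact apply_basis_zero_of_ut hT _
  · obtain ⟨τ, rfl, hτ⟩ := exists_resL_mem_inertia (L := L) hσ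
    rw [← rhoL_resL hL τ, apply_basis_zero_of_ut hT, h _ hτ, Units.val_one, one_smul]

end Flag

/-! ### Cyclicity of the tame inertia -/

section Cyclic

attribute [local instance] galAct

variable [FiniteDimensional ℚ_[p] L]

/-- **Two characters of `Gal(L/ℚ_p)` of square one on the inertia group `Γ₀`, both non-trivial on
`Γ₀`, coincide on `Γ₀`** (`p` odd: they kill the wild inertia, and `Γ₀/Γ₁ ↪ κ_L^×` is cyclic). -/
theorem chi_eq_on_inertia (hp2 : p ≠ 2) (χ χ' : (L ≃ₐ[ℚ_[p]] L) →* kˣ)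
    (hsq : ∀ γ ∈ inertia L, χ γ ^ 2 = 1) (hsq' : ∀ γ ∈ inertia L, χ' γ ^ 2 = 1)
    (hne : ∃ γ ∈ inertia L, χ γ ≠ 1) (hne' : ∃ γ ∈ inertia L, χ' γ ≠ 1) :
    ∀ γ ∈ inertia L, χ γ = χ' γ := by
  have hp : p.Prime := Fact.out
  obtain ⟨π, hπ⟩ := IsDiscreteValuationRing.exists_irreducible (integralClosure ℤ_[p] L)
  -- characters of square one kill the wild inertia
  have hkill : ∀ ψ : (L ≃ₐ[ℚ_[p]] L) →* kˣ, (∀ γ ∈ inertia L, ψ γ ^ 2 = 1) →
      ∀ w ∈ wild L, ψ w = 1 := by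
    intro ψ hψ w hw
    obtain ⟨n, hn⟩ := isPGroup_wild L ⟨w, hw⟩
    have hn' : w ^ p ^ n = 1 := by
      have := congrArg Subtype.val hn
      simpa using this
    have h1 : orderOf (ψ w) ∣ p ^ n := orderOf_dvd_of_pow_eq_one (by rw [← map_pow, hn', map_one])
    have h2 : orderOf (ψ w) ∣ 2 := orderOf_dvd_of_pow_eq_one (hψ w (wild_le_inertia L hw))
    have hcop : Nat.Coprime (p ^ n) 2 :=
      Nat.Coprime.pow_left n ((Nat.coprime_primes hp Nat.prime_two).2 hp2)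
    have h3 : orderOf (ψ w) ∣ 1 := by
      rw [← hcop.gcd_eq_one]
      exact Nat.dvd_gcd h1 h2
    exact orderOf_eq_one_iff.1 (Nat.dvd_one.1 h3)
  have hθ : ∀ ψ : (L ≃ₐ[ℚ_[p]] L) →* kˣ, (∀ γ ∈ inertia L, ψ γ ^ 2 = 1) →
      ∀ h : (maximalIdeal (integralClosure ℤ_[p] L)).inertia (L ≃ₐ[ℚ_[p]] L),
        theta (G := L ≃ₐ[ℚ_[p]] L) hπ h = 1 → (ψ.comp (Subgroup.subtype _)) h = 1 := by
    intro ψ hψ h hh
    exact hkill ψ hψ _ ((mem_ker_theta_iff hπ h).1 (MonoidHom.mem_ker.2 hh))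
  have key := eq_of_sq_eq_one (theta (G := L ≃ₐ[ℚ_[p]] L) hπ)
    (χ.comp (Subgroup.subtype _)) (χ'.comp (Subgroup.subtype _)) (hθ χ hsq) (hθ χ' hsq')
    (fun h => hsq h.1 h.2) (fun h => hsq' h.1 h.2)
    (by obtain ⟨γ, hγ, hγ1⟩ := hne; exact ⟨⟨γ, hγ⟩, hγ1⟩)
    (by obtain ⟨γ, hγ, hγ1⟩ := hne'; exact ⟨⟨γ, hγ⟩, hγ1⟩)
  intro γ hγ
  exact key ⟨γ, hγ⟩

end Cyclic

end Fermat.Agent.S56.Flat.Bridge.InertiaDict
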